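import Mathlib

/-!
# P-X015 (S51), step (C1a): on `y² = x (x - 1) (x - 81)` with `x > 81`, `x` is a square

Write `x = N / D` in lowest terms.  Then `(y D²)² = D N (N - D) (N - 81 D)` in `ℤ`.
`D` is coprime to the other three factors, hence a square.  Let `N = g n` with
`g ∈ {1, 3, 9, 27, 81}` and `n` coprime to `h = 81 / g`.  Then `n` is coprime to
`D (N - D) (n - h D)` and their product is a square, so `n` is a square.  If
`g ∈ {1, 9, 81}` we are done; if `g ∈ {3, 27}` the cofactor is `≡ -(n D)² mod 3`,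
which is not a square modulo `3`.
-/

namespace Fermat.Agent.H95

/-- Coprime-square step: `n` is a square and the quotient equation holds. -/
lemma C1a_core (g h n D W : ℤ) (hgh : g * h = 81) (hg : 0 < g) (hn : 0 < n)
    (hnh : IsCoprime n h) (hnD : IsCoprime n D)
    (hW : W ^ 2 = D * (g * n) * (g * n - D) * (g * n - 81 * D)) :
    ∃ W₁ : ℤ, W₁ ^ 2 = n * (D * (g * n - D) * (n - h * D)) ∧ IsSquare n := by
  have h1 : W ^ 2 = g ^ 2 * (n * (D * (g * n - D) * (n - h * D))) := by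
    rw [hW, ← hgh]; ring
  have hgW : g ∣ W := by
    have h2 : g ^ 2 ∣ W ^ 2 := ⟨_, h1⟩
    exact (Int.pow_dvd_pow_iff two_ne_zero).mp h2
  obtain ⟨W₁, rfl⟩ := hgW
  have h2 : W₁ ^ 2 = n * (D * (g * n - D) * (n - h * D)) := by
    have hg2 : (g ^ 2 : ℤ) ≠ 0 := by positivity
    apply mul_left_cancel₀ hg2
    rw [← h1]; ring
  refine ⟨W₁, h2, ?_⟩
  have hc1 : IsCoprime n (g * n - D) := by
    have h3 : IsCoprime n (-D + g * n) := hnD.neg_right.add_mul_right_right g
    have h4 : -D + g * n = g * n - D := by ring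
    rwa [h4] at h3
  have hc2 : IsCoprime n (n - h * D) := by
    have h3 : IsCoprime n (-(h * D) + 1 * n) :=
      (hnh.mul_right hnD).neg_right.add_mul_right_right 1
    have h4 : -(h * D) + 1 * n = n - h * D := by ring
    rwa [h4] at h3
  have hcop : IsCoprime n (D * (g * n - D) * (n - h * D)) :=
    (hnD.mul_right hc1).mul_right hc2
  obtain ⟨s, hs | hs⟩ := Int.sq_of_isCoprime hcop h2.symm
  · exact ⟨s, by rw [hs]; ring⟩
  · exfalso; nlinarith [sq_nonneg s]

/-- The `3`-adic obstruction: `-(n D)²` is not a square modulo `3`. -/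
lemma C1a_mod_three (g h n D W₁ : ℤ) (hg : (3 : ℤ) ∣ g) (hh : (3 : ℤ) ∣ h)
    (hn : ¬ (3 : ℤ) ∣ n) (hD : ¬ (3 : ℤ) ∣ D)
    (hW : W₁ ^ 2 = n * (D * (g * n - D) * (n - h * D))) : False := by
  have hg0 : ((g : ℤ) : ZMod 3) = 0 := (ZMod.intCast_zmod_eq_zero_iff_dvd g 3).mpr hg
  have hh0 : ((h : ℤ) : ZMod 3) = 0 := (ZMod.intCast_zmod_eq_zero_iff_dvd h 3).mpr hh
  have hn0 : ((n : ℤ) : ZMod 3) ≠ 0 := fun e => hn ((ZMod.intCast_zmod_eq_zero_iff_dvd n 3).mp e)
  have hD0 : ((D : ℤ) : ZMod 3) ≠ 0 := fun e => hD ((ZMod.intCast_zmod_eq_zero_iff_dvd D 3).mp e)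
  have h1 := congrArg (Int.cast : ℤ → ZMod 3) hW
  push_cast at h1
  rw [hg0, hh0] at h1
  revert h1 hn0 hD0
  generalize ((n : ℤ) : ZMod 3) = a
  generalize ((D : ℤ) : ZMod 3) = b
  generalize ((W₁ : ℤ) : ZMod 3) = c
  revert a b c
  decide

theorem C1a_isSquare_x (x y : ℚ) (hx : 81 < x) (h : y ^ 2 = x * (x - 1) * (x - 81)) :
    IsSquare x := by
  rw [Rat.isSquare_iff]
  have hDpos : (0 : ℤ) < (x.den : ℤ) := by exact_mod_cast x.den_pos
  have hNpos : 0 < x.num := Rat.num_pos.mpr (by linarith)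
  have hcop : IsCoprime x.num (x.den : ℤ) := by
    rw [Int.isCoprime_iff_gcd_eq_one]
    exact x.reduced
  -- integrality of `y * D ^ 2`
  have hsq : IsSquare (((x.den : ℤ) * x.num * (x.num - x.den) * (x.num - 81 * x.den) : ℤ) : ℚ) := by
    refine ⟨y * (x.den : ℚ) ^ 2, ?_⟩
    have hD0 : (x.den : ℚ) ≠ 0 := by exact_mod_cast x.den_pos.ne'
    have hxND : x = x.num / x.den := (Rat.num_div_den x).symm
    have h' : y ^ 2 = (x.num / x.den : ℚ) * ((x.num / x.den : ℚ) - 1) * ((x.num / x.den : ℚ) - 81) := by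
      rw [← hxND]; exact h
    push_cast
    have : (y * (x.den : ℚ) ^ 2) * (y * (x.den : ℚ) ^ 2) = y ^ 2 * (x.den : ℚ) ^ 4 := by ring
    rw [this, h']
    field_simp
  rw [Rat.isSquare_intCast_iff] at hsq
  obtain ⟨W, hW⟩ := hsq
  generalize hN : x.num = N at *
  generalize hD : (x.den : ℤ) = D at *
  have hW2 : W ^ 2 = D * N * (N - D) * (N - 81 * D) := by rw [hW]; ring
  -- `D` is a square
  have hDsq : IsSquare D := by
    have hc1 : IsCoprime D N := hcop.symm
    have hc2 : IsCoprime D (N - D) := by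
      have h3 : IsCoprime D (N + (-1) * D) := hc1.add_mul_right_right (-1)
      have h4 : N + (-1) * D = N - D := by ring
      rwa [h4] at h3
    have hc3 : IsCoprime D (N - 81 * D) := by
      have h3 : IsCoprime D (N + (-81) * D) := hc1.add_mul_right_right (-81)
      have h4 : N + (-81) * D = N - 81 * D := by ring
      rwa [h4] at h3
    have hc : IsCoprime D (N * (N - D) * (N - 81 * D)) := (hc1.mul_right hc2).mul_right hc3
    have he : D * (N * (N - D) * (N - 81 * D)) = W ^ 2 := by rw [hW2]; ring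
    obtain ⟨s, hs | hs⟩ := Int.sq_of_isCoprime hc he
    · exact ⟨s, by rw [hs]; ring⟩
    · exfalso; nlinarith [sq_nonneg s]
  have hDsq' : IsSquare x.den := by
    rw [← Int.isSquare_natCast_iff, hD]; exact hDsq
  refine ⟨?_, hDsq'⟩
  -- `3 ∤ D` whenever `3 ∣ N`
  have h3D : (3 : ℤ) ∣ N → ¬ (3 : ℤ) ∣ D := by
    intro h3N h3D
    have : IsUnit (3 : ℤ) := hcop.isUnit_of_dvd' h3N h3D
    rw [Int.isUnit_iff] at this
    omega
  have hprime : Prime (3 : ℤ) := Int.prime_three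
  have hcop3 : ∀ m : ℤ, ¬ (3 : ℤ) ∣ m → ∀ k : ℕ, IsCoprime m ((3 : ℤ) ^ k) := by
    intro m hm k
    exact (((Prime.coprime_iff_not_dvd hprime).mpr hm).symm).pow_right
  by_cases d1 : (3 : ℤ) ∣ N
  · obtain ⟨n1, rfl⟩ := d1
    have hn1pos : 0 < n1 := by omega
    have hn1D : IsCoprime n1 D := IsCoprime.of_mul_left_right hcop
    by_cases d2 : (3 : ℤ) ∣ n1
    · obtain ⟨n2, rfl⟩ := d2
      have hn2pos : 0 < n2 := by omega
      have hn2D : IsCoprime n2 D := IsCoprime.of_mul_left_right hn1D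
      by_cases d3 : (3 : ℤ) ∣ n2
      · obtain ⟨n3, rfl⟩ := d3
        have hn3pos : 0 < n3 := by omega
        have hn3D : IsCoprime n3 D := IsCoprime.of_mul_left_right hn2D
        by_cases d4 : (3 : ℤ) ∣ n3
        · -- `81 ∣ N`
          obtain ⟨n4, rfl⟩ := d4
          have hn4pos : 0 < n4 := by omega
          have hn4D : IsCoprime n4 D := IsCoprime.of_mul_left_right hn3D
          have hW3 : W ^ 2 = D * (81 * n4) * (81 * n4 - D) * (81 * n4 - 81 * D) := by
            rw [hW2]; ring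
          obtain ⟨W₁, -, s, hs⟩ := C1a_core 81 1 n4 D W (by norm_num) (by norm_num) hn4pos
            isCoprime_one_right hn4D hW3
          exact ⟨9 * s, by rw [hs]; ring⟩
        · -- `N = 27 n3`, `3 ∤ n3`
          exfalso
          have hW3 : W ^ 2 = D * (27 * n3) * (27 * n3 - D) * (27 * n3 - 81 * D) := by
            rw [hW2]; ring
          obtain ⟨W₁, hW₁, -⟩ := C1a_core 27 3 n3 D W (by norm_num) (by norm_num) hn3pos
            (by simpa using hcop3 n3 d4 1) hn3D hW3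
          exact C1a_mod_three 27 3 n3 D W₁ (by norm_num) (by norm_num) d4
            (h3D ⟨3 * (3 * n3), by ring⟩) hW₁
      · -- `N = 9 n2`, `3 ∤ n2`
        have hW3 : W ^ 2 = D * (9 * n2) * (9 * n2 - D) * (9 * n2 - 81 * D) := by
          rw [hW2]; ring
        obtain ⟨W₁, -, s, hs⟩ := C1a_core 9 9 n2 D W (by norm_num) (by norm_num) hn2pos
          (by simpa using hcop3 n2 d3 2) hn2D hW3
        exact ⟨3 * s, by rw [hs]; ring⟩
    · -- `N = 3 n1`, `3 ∤ n1`
      exfalso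
      have hW3 : W ^ 2 = D * (3 * n1) * (3 * n1 - D) * (3 * n1 - 81 * D) := by
        rw [hW2]
      obtain ⟨W₁, hW₁, -⟩ := C1a_core 3 27 n1 D W (by norm_num) (by norm_num) hn1pos
        (by simpa using hcop3 n1 d2 3) hn1D hW3
      exact C1a_mod_three 3 27 n1 D W₁ (by norm_num) (by norm_num) d2
        (h3D ⟨n1, rfl⟩) hW₁
  · -- `3 ∤ N`
    have hW3 : W ^ 2 = D * (1 * N) * (1 * N - D) * (1 * N - 81 * D) := by
      rw [hW2]; ring
    obtain ⟨W₁, -, s, hs⟩ := C1a_core 1 81 N D W (by norm_num) (by norm_num) hNpos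
      (by simpa using hcop3 N d1 4) hcop hW3
    exact ⟨s, hs⟩

end Fermat.Agent.H95
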