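import Fermat.Agent.H95.S52FamilyPoly
import Fermat.Agent.H2.DoergePsi3

/-!
# P-S52 / WP-E (final): specialisations of the mod-5 family with irreducible 3-torsion

For rational `a, b` with `4 a^3 + 27 b^2 ≠ 0`, every modulus `M > 0` and bound `N0`
there is `n ≥ N0`, `M ∣ n`, with `D(a,b,n) ≠ 0` such that the 3-division polynomial
`Ψ₃(y) = 3 y^4 + 6 A(n) y^2 + 12 B(n) y - A(n)^2` of
`E_n : y^2 = x^3 + A(a,b,n) x + B(a,b,n)` has no rational root.
-/

namespace Fermat.Agent.H95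

open Polynomial

section values

variable {K : Type*} [Field K]

/-- `A(a,b,t)`, the `x`-coefficient of the family (over a field). -/
noncomputable def S52_A (a b t : K) : K := 3⁻¹ * S52_A3 a b t

/-- `B(a,b,t)`, the constant coefficient of the family (over a field). -/
noncomputable def S52_B (a b t : K) : K := 27⁻¹ * S52_B27 a b t

theorem S52_Apoly_eval' (a b t : K) : (S52_Apoly a b).eval t = S52_A a b t :=
  S52_Apoly_eval a b t

theorem S52_Bpoly_eval' (a b t : K) : (S52_Bpoly a b).eval t = S52_B a b t :=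
  S52_Bpoly_eval a b t

theorem S52_A_zero (h3 : (3 : K) ≠ 0) (a b : K) : S52_A a b 0 = a := by
  unfold S52_A S52_A3
  field_simp
  ring

theorem S52_B_zero (h3 : (3 : K) ≠ 0) (a b : K) : S52_B a b 0 = b := by
  have h27 : (27 : K) ≠ 0 := by
    have : (27 : K) = 3 ^ 3 := by norm_num
    rw [this]; exact pow_ne_zero 3 h3
  unfold S52_B S52_B27
  field_simp
  ring

theorem S52_D_zero (a b : K) : S52_D a b 0 = 1 := by
  unfold S52_D
  ring

/-- The discriminant relation on values: `4 A^3 + 27 B^2 = Δ₀ D^5`. -/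
theorem S52_disc_rel (h3 : (3 : K) ≠ 0) (a b t : K) :
    4 * S52_A a b t ^ 3 + 27 * S52_B a b t ^ 2
      = (4 * a ^ 3 + 27 * b ^ 2) * S52_D a b t ^ 5 := by
  have h := congrArg (Polynomial.eval t) (S52_poly_hrel h3 a b)
  simp only [eval_add, eval_mul, eval_pow, eval_ofNat, eval_C, S52_Apoly_eval', S52_Bpoly_eval',
    S52_Dpoly_eval] at h
  exact h

end values

/-- The leading coefficient of `D` does not vanish over `ℚ`. -/
theorem S52_lc_ne_zero (a b : ℚ) (hΔ : 4 * a ^ 3 + 27 * b ^ 2 ≠ 0) :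
    6400 * b ^ 4 + 1792 * a ^ 3 * b ^ 2 + 125 * a ^ 6 ≠ 0 := by
  intro h
  have h11 : ¬ IsSquare (11 : ℚ) := by norm_num
  by_cases hb : b = 0
  · subst hb
    have ha : a = 0 := by
      have : 125 * a ^ 6 = 0 := by linear_combination h
      have : a ^ 6 = 0 := by
        rcases mul_eq_zero.mp this with h' | h'
        · norm_num at h'
        · exact h'
      exact pow_eq_zero_iff (by norm_num) |>.mp this
    apply hΔ
    rw [ha]; ring
  · apply h11
    refine ⟨(250 * a ^ 3 + 1792 * b ^ 2) / (32 * b ^ 2), ?_⟩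
    have hb2 : (32 : ℚ) * b ^ 2 ≠ 0 := mul_ne_zero (by norm_num) (pow_ne_zero 2 hb)
    field_simp
    linear_combination (-500 : ℚ) * h

theorem S52_Dpoly_coeff_twelve {K : Type*} [Field K] (a b : K) :
    (S52_Dpoly a b).coeff 12 = 6400 * b ^ 4 + 1792 * a ^ 3 * b ^ 2 + 125 * a ^ 6 := by
  unfold S52_Dpoly S52_D
  compute_degree!

theorem S52_Dpoly_natDegree (a b : ℚ) (hΔ : 4 * a ^ 3 + 27 * b ^ 2 ≠ 0) :
    (S52_Dpoly a b).natDegree = 12 := by
  apply le_antisymm (S52_Dpoly_natDegree_le a b)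
  apply le_natDegree_of_ne_zero
  rw [S52_Dpoly_coeff_twelve]
  exact S52_lc_ne_zero a b hΔ

/-- **WP-E2 for the explicit family**: `Ψ₃` has no root in `ℚ[t]`. -/
theorem S52_psi3_no_polynomial_root (a b : ℚ) (hΔ : 4 * a ^ 3 + 27 * b ^ 2 ≠ 0) (x : ℚ[X]) :
    3 * x ^ 4 + 6 * S52_Apoly a b * x ^ 2 + 12 * S52_Bpoly a b * x - S52_Apoly a b ^ 2 ≠ 0 :=
  S52E2_no_polynomial_root (S52_Apoly a b) (S52_Bpoly a b) (S52_Dpoly a b)
    (4 * a ^ 3 + 27 * b ^ 2) hΔ (S52_poly_hrel (by norm_num) a b)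
    (S52_Dpoly_separable (by norm_num) (by norm_num) a b hΔ)
    (S52_Apoly_isCoprime (by norm_num) (by norm_num) (by norm_num) (by norm_num) a b hΔ)
    (by rw [S52_Dpoly_natDegree a b hΔ]; norm_num) x

/-- **WP-E, final form.** -/
theorem S52_exists_specialization (a b : ℚ) (hΔ : 4 * a ^ 3 + 27 * b ^ 2 ≠ 0)
    (M : ℕ) (hM : 0 < M) (N0 : ℕ) :
    ∃ n : ℕ, N0 ≤ n ∧ M ∣ n ∧ S52_D a b (n : ℚ) ≠ 0 ∧
      ∀ y : ℚ, 3 * y ^ 4 + 6 * S52_A a b (n : ℚ) * y ^ 2 + 12 * S52_B a b (n : ℚ) * y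
        - S52_A a b (n : ℚ) ^ 2 ≠ 0 := by
  have hD0 : S52_Dpoly a b ≠ 0 := by
    intro h0
    have := S52_Dpoly_natDegree a b hΔ
    rw [h0] at this
    simp at this
  -- a bound beyond which `D` has no natural root
  obtain ⟨N1, hN1⟩ : ∃ N1 : ℕ, ∀ n : ℕ, N1 ≤ n → (S52_Dpoly a b).eval (n : ℚ) ≠ 0 := by
    have hfin : {n : ℕ | (S52_Dpoly a b).eval (n : ℚ) = 0}.Finite := by
      have hroots : ((S52_Dpoly a b).rootSet ℚ).Finite := Polynomial.rootSet_finite _ ℚ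
      refine Set.Finite.of_injOn (f := fun n : ℕ => (n : ℚ)) ?_ (Nat.cast_injective.injOn) hroots
      intro n hn
      rw [Polynomial.mem_rootSet]
      exact ⟨hD0, by simpa using hn⟩
    obtain ⟨N, hN⟩ := hfin.bddAbove
    refine ⟨N + 1, fun n hn h0 => ?_⟩
    have := hN h0
    omega
  have hdisc : 4 * (S52_Apoly a b).coeff (2 * 10) ^ 3 + 27 * (S52_Bpoly a b).coeff (3 * 10) ^ 2
      ≠ 0 := by
    rw [S52E2_top_coeff_rel (S52_Apoly a b) (S52_Bpoly a b) (S52_Dpoly a b)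
      (4 * a ^ 3 + 27 * b ^ 2) 10 (S52_Apoly_natDegree_le a b) (S52_Bpoly_natDegree_le a b) 12
      (S52_Dpoly_natDegree_le a b) (by norm_num) (S52_poly_hrel (by norm_num) a b)]
    rw [S52_Dpoly_coeff_twelve]
    exact mul_ne_zero hΔ (pow_ne_zero 5 (S52_lc_ne_zero a b hΔ))
  obtain ⟨n, hn, hMn, hroot⟩ := Fermat.Agent.H2.doerge_psi3 (S52_Apoly a b) (S52_Bpoly a b) 10
    (S52_Apoly_natDegree_le a b) (S52_Bpoly_natDegree_le a b) hdisc
    (S52_psi3_no_polynomial_root a b hΔ) M hM (max N0 N1)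
  refine ⟨n, le_trans (le_max_left _ _) hn, hMn, ?_, ?_⟩
  · rw [← S52_Dpoly_eval]
    exact hN1 n (le_trans (le_max_right _ _) hn)
  · intro y
    have := hroot y
    rwa [S52_Apoly_eval', S52_Bpoly_eval'] at this

end Fermat.Agent.H95
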