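import Mathlib.NumberTheory.FLT.Polynomial
import Mathlib.FieldTheory.RatFunc.AsPolynomial
import Mathlib.FieldTheory.Separable
import Mathlib.RingTheory.Polynomial.UniqueFactorization
import Mathlib.RingTheory.IntegralClosure.IntegrallyClosed
import Mathlib.Tactic.LinearCombination
import Mathlib.Tactic.Ring
import Mathlib.Tactic.NormNum

/-!
# P-S52 / WP-E2: the 3-division polynomial of the family `E_t` has no polynomial root

Abstract form.  Let `K` be a field in which `2, 3, 5` are invertible and let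
`A B D : K[X]` satisfy `4 A^3 + 27 B^2 = Δ₀ D^5` with `Δ₀ ≠ 0`, `D` separable
(equivalently squarefree), `A` coprime to `D` and `D` non-constant.  Then
`Ψ₃(x) = 3 x^4 + 6 A x^2 + 12 B x - A^2` has no root `x` in `K[X]`, hence none in
`RatFunc K`.

Proof.  Put `u = x^3 + A x + B`, `w = 3 x^2 + A`.  Then `Ψ₃(x) = 0` gives
`w^2 = 12 x u` and `Δ₀ D^5 = 3 u (9 u - 2 x w)`.  A prime `π ∣ u` divides `w` and
`D`, not `x`, and a divisibility chain shows `π^2 ∣ D`: impossible.  So `u` is a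
nonzero constant `c`, and `2 Δ₀ D^5 + w^3 = 54 c^2`, which contradicts the
Fermat-Catalan theorem for polynomials (exponents `5, 3, 3`).
-/

namespace Fermat.Agent.H95

open Polynomial

/-- `Ψ₃(x) = 0` is equivalent to `w^2 = 12 x u` (one direction). -/
theorem S52E2_sq_eq {R : Type*} [CommRing R] (A B x : R)
    (h : 3 * x ^ 4 + 6 * A * x ^ 2 + 12 * B * x - A ^ 2 = 0) :
    (3 * x ^ 2 + A) ^ 2 = 12 * x * (x ^ 3 + A * x + B) := by
  linear_combination (-1 : R) * h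

/-- Under `Ψ₃(x) = 0` the discriminant factors as `3 u (9 u - 2 x w)`. -/
theorem S52E2_disc_eq {R : Type*} [CommRing R] (A B x : R)
    (h : 3 * x ^ 4 + 6 * A * x ^ 2 + 12 * B * x - A ^ 2 = 0) :
    4 * A ^ 3 + 27 * B ^ 2 =
      3 * (x ^ 3 + A * x + B) * (9 * (x ^ 3 + A * x + B) - 2 * x * (3 * x ^ 2 + A)) := by
  linear_combination (-3 * x ^ 2 - 4 * A) * h

/-- The divisibility chain: a prime `π` (not dividing `2`, `3`, `c`, `x`) dividing `u`
forces `π ^ 2 ∣ D`. -/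
theorem S52E2_prime_sq_dvd {R : Type*} [CommRing R] [IsDomain R] {π x u w D c : R}
    (hπ : Prime π) (h2 : ¬ π ∣ 2) (h3 : ¬ π ∣ 3) (hc : ¬ π ∣ c) (hx : ¬ π ∣ x)
    (hw2 : w ^ 2 = 12 * x * u) (hD : c * D ^ 5 = 3 * u * (9 * u - 2 * x * w))
    (hu : π ∣ u) : π ^ 2 ∣ D := by
  have hπ0 : π ≠ 0 := hπ.ne_zero
  have h12 : ¬ π ∣ (12 : R) := by
    intro h
    have h' : π ∣ (2 : R) * (2 * 3) := by
      have : (2 : R) * (2 * 3) = 12 := by norm_num
      rwa [this]
    rcases hπ.dvd_or_dvd h' with h'' | h''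
    · exact h2 h''
    · rcases hπ.dvd_or_dvd h'' with h''' | h'''
      · exact h2 h'''
      · exact h3 h'''
  -- key local fact: from `a ^ 2 = 12 * x * b`, `π ∣ a ↔ π ∣ b`
  have key1 : ∀ a b : R, a ^ 2 = 12 * x * b → π ∣ b → π ∣ a := by
    intro a b hab hb
    have : π ∣ a ^ 2 := by rw [hab]; exact Dvd.dvd.mul_left hb _
    exact hπ.dvd_of_dvd_pow this
  have key2 : ∀ a b : R, a ^ 2 = 12 * x * b → π ∣ a → π ∣ b := by
    intro a b hab ha
    have : π ∣ 12 * x * b := by rw [← hab]; exact Dvd.dvd.pow ha two_ne_zero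
    rcases hπ.dvd_or_dvd this with h | h
    · rcases hπ.dvd_or_dvd h with h' | h'
      · exact absurd h' h12
      · exact absurd h' hx
    · exact h
  -- from `π * a ^ 2 = 12 * x * b` we get `π ∣ b`
  have key3 : ∀ a b : R, π * a ^ 2 = 12 * x * b → π ∣ b := by
    intro a b hab
    have : π ∣ 12 * x * b := by rw [← hab]; exact Dvd.intro _ rfl
    rcases hπ.dvd_or_dvd this with h | h
    · rcases hπ.dvd_or_dvd h with h' | h'
      · exact absurd h' h12
      · exact absurd h' hx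
    · exact h
  -- Step 1
  obtain ⟨w₁, rfl⟩ := key1 w u hw2 hu
  obtain ⟨u₁, rfl⟩ := hu
  have e1 : π * w₁ ^ 2 = 12 * x * u₁ := by
    apply mul_left_cancel₀ hπ0
    linear_combination hw2
  obtain ⟨u₂, rfl⟩ := key3 w₁ u₁ e1
  have e2 : w₁ ^ 2 = 12 * x * u₂ := by
    apply mul_left_cancel₀ hπ0
    linear_combination e1
  -- Step 3: `π ∣ D`
  have hDdvd : π ∣ D := by
    have : π ∣ c * D ^ 5 := by
      rw [hD]
      exact Dvd.dvd.mul_right (Dvd.dvd.mul_left (Dvd.intro _ rfl) _) _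
    rcases hπ.dvd_or_dvd this with h | h
    · exact absurd h hc
    · exact hπ.dvd_of_dvd_pow h
  obtain ⟨D₁, rfl⟩ := hDdvd
  have e3 : c * π ^ 2 * D₁ ^ 5 = 3 * u₂ * (9 * π * u₂ - 2 * x * w₁) := by
    apply mul_left_cancel₀ (pow_ne_zero 3 hπ0)
    linear_combination hD
  -- Step 4: `π ∣ u₂` and `π ∣ w₁`
  have hu₂ : π ∣ u₂ := by
    have : π ∣ 3 * u₂ * (9 * π * u₂ - 2 * x * w₁) := by
      rw [← e3]
      exact Dvd.dvd.mul_right (Dvd.dvd.mul_left (Dvd.intro_left _ (by ring : π * π = π ^ 2)) _) _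
    rcases hπ.dvd_or_dvd this with h | h
    · rcases hπ.dvd_or_dvd h with h' | h'
      · exact absurd h' h3
      · exact h'
    · -- `π ∣ 2 * x * w₁`
      have h' : π ∣ 2 * x * w₁ := by
        have : 2 * x * w₁ = 9 * π * u₂ - (9 * π * u₂ - 2 * x * w₁) := by ring
        rw [this]
        exact dvd_sub (Dvd.intro _ (by ring : π * (9 * u₂) = 9 * π * u₂)) h
      rcases hπ.dvd_or_dvd h' with h'' | h''
      · rcases hπ.dvd_or_dvd h'' with h''' | h'''
        · exact absurd h''' h2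
        · exact absurd h''' hx
      · exact key2 w₁ u₂ e2 h''
  obtain ⟨w₂, rfl⟩ := key1 w₁ u₂ e2 hu₂
  obtain ⟨u₃, rfl⟩ := hu₂
  have e4 : π * w₂ ^ 2 = 12 * x * u₃ := by
    apply mul_left_cancel₀ hπ0
    linear_combination e2
  have hu₃ : π ∣ u₃ := key3 w₂ u₃ e4
  have e5 : c * D₁ ^ 5 = 3 * u₃ * (9 * π * u₃ - 2 * x * w₂) := by
    apply mul_left_cancel₀ (pow_ne_zero 2 hπ0)
    linear_combination e3
  have hD₁ : π ∣ D₁ := by
    have : π ∣ c * D₁ ^ 5 := by
      rw [e5]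
      exact Dvd.dvd.mul_right (Dvd.dvd.mul_left hu₃ _) _
    rcases hπ.dvd_or_dvd this with h | h
    · exact absurd h hc
    · exact hπ.dvd_of_dvd_pow h
  obtain ⟨D₂, rfl⟩ := hD₁
  exact Dvd.intro D₂ (by ring)

/-- **WP-E2, polynomial form (core).**  `Ψ₃` of the family has no root in `K[X]`. -/
theorem S52E2_no_polynomial_root_core {K : Type*} [Field K]
    (h2 : (2 : K) ≠ 0) (h3 : (3 : K) ≠ 0) (h5 : (5 : K) ≠ 0)
    (A B D : K[X]) (Δ₀ : K) (hΔ₀ : Δ₀ ≠ 0)
    (hrel : 4 * A ^ 3 + 27 * B ^ 2 = C Δ₀ * D ^ 5)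
    (hsq : Squarefree D) (hcop : IsCoprime A D) (hdeg : 0 < D.natDegree)
    (x : K[X]) : 3 * x ^ 4 + 6 * A * x ^ 2 + 12 * B * x - A ^ 2 ≠ 0 := by
  intro h
  have hw2 := S52E2_sq_eq A B x h
  have hD : C Δ₀ * D ^ 5 =
      3 * (x ^ 3 + A * x + B) * (9 * (x ^ 3 + A * x + B) - 2 * x * (3 * x ^ 2 + A)) := by
    rw [← hrel]; exact S52E2_disc_eq A B x h
  generalize hu : x ^ 3 + A * x + B = u at hw2 hD
  generalize hw : 3 * x ^ 2 + A = w at hw2 hD
  have hD0 : D ≠ 0 := by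
    intro h0; rw [h0] at hdeg; simp at hdeg
  have hCΔ : IsUnit (C Δ₀ : K[X]) := Polynomial.isUnit_C.mpr hΔ₀.isUnit
  have hC2 : IsUnit (2 : K[X]) := by
    have : (2 : K[X]) = C 2 := (map_ofNat C 2).symm
    rw [this]; exact Polynomial.isUnit_C.mpr h2.isUnit
  have hC3 : IsUnit (3 : K[X]) := by
    have : (3 : K[X]) = C 3 := (map_ofNat C 3).symm
    rw [this]; exact Polynomial.isUnit_C.mpr h3.isUnit
  have hu0 : u ≠ 0 := by
    intro h0
    rw [h0] at hD
    have : C Δ₀ * D ^ 5 = 0 := by rw [hD]; ring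
    rcases mul_eq_zero.mp this with h' | h'
    · exact hΔ₀ (by simpa using h')
    · exact hD0 (pow_eq_zero_iff (by norm_num) |>.mp h')
  have hunit : IsUnit u := by
    by_contra hnu
    obtain ⟨π, hπirr, hπu⟩ := WfDvdMonoid.exists_irreducible_factor hnu hu0
    have hπ : Prime π := hπirr.prime
    have hnot : ∀ a : K[X], IsUnit a → ¬ π ∣ a :=
      fun a ha hd => hπ.not_isUnit (isUnit_of_dvd_unit hd ha)
    have hπw : π ∣ w := hπ.dvd_of_dvd_pow (by rw [hw2]; exact hπu.mul_left _)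
    have hπD : π ∣ D := by
      have : π ∣ C Δ₀ * D ^ 5 := by
        rw [hD]; exact Dvd.dvd.mul_right (hπu.mul_left _) _
      rcases hπ.dvd_or_dvd this with h' | h'
      · exact absurd h' (hnot _ hCΔ)
      · exact hπ.dvd_of_dvd_pow h'
    have hx : ¬ π ∣ x := by
      intro hπx
      have hπA : π ∣ A := by
        have : A = w - 3 * x ^ 2 := by rw [← hw]; ring
        rw [this]
        exact dvd_sub hπw (Dvd.dvd.mul_left (Dvd.dvd.pow hπx two_ne_zero) _)
      exact hπ.not_isUnit (hcop.isUnit_of_dvd' hπA hπD)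
    have hsqd := S52E2_prime_sq_dvd hπ (hnot _ hC2) (hnot _ hC3) (hnot _ hCΔ) hx hw2 hD hπu
    exact hπ.not_isUnit (hsq π (by rwa [← sq]))
  obtain ⟨c, hc, hcu⟩ := Polynomial.isUnit_iff.mp hunit
  have hc0 : c ≠ 0 := hc.ne_zero
  subst hcu
  have h54 : (54 : K) * c ^ 2 ≠ 0 := by
    have : (54 : K) = 2 * 3 ^ 3 := by norm_num
    rw [this]
    exact mul_ne_zero (mul_ne_zero h2 (pow_ne_zero 3 h3)) (pow_ne_zero 2 hc0)
  have hmain : C (2 * Δ₀) * D ^ 5 + w ^ 3 = C (54 * c ^ 2) := by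
    simp only [map_mul, map_pow, map_ofNat]
    linear_combination 2 * hD + w * hw2
  have heq : C (2 * Δ₀) * D ^ 5 + C (1 : K) * w ^ 3 + C (-(54 * c ^ 2)) * 1 ^ 3 = 0 := by
    rw [map_one, one_mul, hmain, one_pow, mul_one, map_neg, add_neg_cancel]
  have hw0 : w ≠ 0 := by
    intro h0
    rw [h0] at hmain
    have h1 : (C (2 * Δ₀) * D ^ 5).natDegree = 5 * D.natDegree := by
      rw [Polynomial.natDegree_C_mul (mul_ne_zero h2 hΔ₀), Polynomial.natDegree_pow]
    have h2' : (C (2 * Δ₀) * D ^ 5).natDegree = 0 := by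
      have : C (2 * Δ₀) * D ^ 5 = C (54 * c ^ 2) := by
        rw [← hmain]; ring
      rw [this, Polynomial.natDegree_C]
    omega
  have hDw : IsCoprime D w := by
    refine ⟨C ((54 * c ^ 2)⁻¹ * (2 * Δ₀)) * D ^ 4, C ((54 * c ^ 2)⁻¹) * w ^ 2, ?_⟩
    have : C ((54 * c ^ 2)⁻¹ * (2 * Δ₀)) * D ^ 4 * D + C ((54 * c ^ 2)⁻¹) * w ^ 2 * w
        = C ((54 * c ^ 2)⁻¹) * (C (2 * Δ₀) * D ^ 5 + w ^ 3) := by
      rw [map_mul]; ring
    rw [this, hmain, ← map_mul, inv_mul_cancel₀ h54, map_one]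
  have hfc := Polynomial.flt_catalan (p := 5) (q := 3) (r := 3) (by norm_num) (by norm_num)
    (by norm_num) (by norm_num) (by exact_mod_cast h5) (by exact_mod_cast h3)
    (by exact_mod_cast h3) hD0 hw0 one_ne_zero hDw (mul_ne_zero h2 hΔ₀) one_ne_zero
    (neg_ne_zero.mpr h54) heq
  omega

/-- **WP-E2, polynomial form**, characteristic zero, `D` separable. -/
theorem S52E2_no_polynomial_root {K : Type*} [Field K] [CharZero K]
    (A B D : K[X]) (Δ₀ : K) (hΔ₀ : Δ₀ ≠ 0)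
    (hrel : 4 * A ^ 3 + 27 * B ^ 2 = C Δ₀ * D ^ 5)
    (hsep : D.Separable) (hcop : IsCoprime A D) (hdeg : 0 < D.natDegree)
    (x : K[X]) : 3 * x ^ 4 + 6 * A * x ^ 2 + 12 * B * x - A ^ 2 ≠ 0 :=
  S52E2_no_polynomial_root_core (by norm_num) (by norm_num) (by norm_num) A B D Δ₀ hΔ₀ hrel
    hsep.squarefree hcop hdeg x

/-- A root of `Ψ₃` in the fraction field `RatFunc K` is (the image of) a polynomial:
the leading coefficient `3` is a unit, so the root is integral over `K[X]`. -/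
theorem S52E2_root_is_polynomial {K : Type*} [Field K] (h3 : (3 : K) ≠ 0)
    (A B : K[X]) (x : RatFunc K)
    (h : 3 * x ^ 4 + 6 * algebraMap K[X] (RatFunc K) A * x ^ 2
      + 12 * algebraMap K[X] (RatFunc K) B * x - (algebraMap K[X] (RatFunc K) A) ^ 2 = 0) :
    ∃ y : K[X], algebraMap K[X] (RatFunc K) y = x := by
  have hint : IsIntegral K[X] x := by
    refine ⟨X ^ 4 + (C (2 * A) * X ^ 2 + C (4 * B) * X + C (-(C (3⁻¹ : K) * A ^ 2))), ?_, ?_⟩
    · apply Polynomial.monic_X_pow_add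
      refine lt_of_le_of_lt (Polynomial.degree_quadratic_le) ?_
      norm_num
    · have h3' : algebraMap K[X] (RatFunc K) (C (3⁻¹ : K)) * 3 = 1 := by
        have : (3 : RatFunc K) = algebraMap K[X] (RatFunc K) (C (3 : K)) := by
          rw [map_ofNat C 3, map_ofNat]
        rw [this, ← map_mul, ← map_mul, inv_mul_cancel₀ h3, map_one, map_one]
      simp only [eval₂_add, eval₂_mul, eval₂_pow, eval₂_X, eval₂_C]
      simp only [map_mul, map_neg, map_pow, map_ofNat]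
      linear_combination (algebraMap K[X] (RatFunc K) (C (3⁻¹ : K))) * h
        - (x ^ 4 + 2 * algebraMap K[X] (RatFunc K) A * x ^ 2
            + 4 * algebraMap K[X] (RatFunc K) B * x) * h3'
  exact IsIntegrallyClosed.isIntegral_iff.mp hint

/-- **WP-E2, rational-function form (core).** -/
theorem S52E2_no_ratFunc_root_core {K : Type*} [Field K]
    (h2 : (2 : K) ≠ 0) (h3 : (3 : K) ≠ 0) (h5 : (5 : K) ≠ 0)
    (A B D : K[X]) (Δ₀ : K) (hΔ₀ : Δ₀ ≠ 0)
    (hrel : 4 * A ^ 3 + 27 * B ^ 2 = C Δ₀ * D ^ 5)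
    (hsq : Squarefree D) (hcop : IsCoprime A D) (hdeg : 0 < D.natDegree)
    (x : RatFunc K) :
    3 * x ^ 4 + 6 * algebraMap K[X] (RatFunc K) A * x ^ 2
      + 12 * algebraMap K[X] (RatFunc K) B * x - (algebraMap K[X] (RatFunc K) A) ^ 2 ≠ 0 := by
  intro h
  obtain ⟨y, rfl⟩ := S52E2_root_is_polynomial h3 A B x h
  apply S52E2_no_polynomial_root_core h2 h3 h5 A B D Δ₀ hΔ₀ hrel hsq hcop hdeg y
  apply IsFractionRing.injective K[X] (RatFunc K)
  rw [map_zero, ← h]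
  simp only [map_sub, map_add, map_mul, map_pow, map_ofNat]

/-- **WP-E2, rational-function form**, characteristic zero, `D` separable. -/
theorem S52E2_no_ratFunc_root {K : Type*} [Field K] [CharZero K]
    (A B D : K[X]) (Δ₀ : K) (hΔ₀ : Δ₀ ≠ 0)
    (hrel : 4 * A ^ 3 + 27 * B ^ 2 = C Δ₀ * D ^ 5)
    (hsep : D.Separable) (hcop : IsCoprime A D) (hdeg : 0 < D.natDegree)
    (x : RatFunc K) :
    3 * x ^ 4 + 6 * algebraMap K[X] (RatFunc K) A * x ^ 2
      + 12 * algebraMap K[X] (RatFunc K) B * x - (algebraMap K[X] (RatFunc K) A) ^ 2 ≠ 0 :=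
  S52E2_no_ratFunc_root_core (by norm_num) (by norm_num) (by norm_num) A B D Δ₀ hΔ₀ hrel
    hsep.squarefree hcop hdeg x

end Fermat.Agent.H95
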