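import Fermat.Agent.H95.S52E2
import Mathlib.Algebra.Polynomial.BigOperators
import Mathlib.Tactic.ComputeDegree

/-!
# P-S52 / WP-E: the monic quartic `z^4 + 18 A z^2 + 108 B z - 27 A^2`

This is `27 Ψ₃(z / 3)`, the monic normalisation of the 3-division polynomial of
`y^2 = x^3 + A x + B`, in the shape consumed by the Doerge-type lemma (WP-E1):
monic in `z`, weighted-homogeneous of weight `4 w` when `deg A ≤ 2 w`, `deg B ≤ 3 w`,
with separable leading form as soon as the top coefficients satisfy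
`4 a^3 + 27 b^2 ≠ 0`.
-/

namespace Fermat.Agent.H95

open Polynomial

section ring

variable {R : Type*} [CommRing R]

/-- The monic quartic `z^4 + 18 A z^2 + 108 B z - 27 A^2`. -/
noncomputable def S52E2_quartic (A B : R) : R[X] :=
  X ^ 4 + C (18 * A) * X ^ 2 + C (108 * B) * X - C (27 * A ^ 2)

theorem S52E2_quartic_eval (A B z : R) :
    (S52E2_quartic A B).eval z = z ^ 4 + 18 * A * z ^ 2 + 108 * B * z - 27 * A ^ 2 := by
  simp [S52E2_quartic]

theorem S52E2_quartic_eval_three_mul (A B x : R) :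
    (S52E2_quartic A B).eval (3 * x) =
      27 * (3 * x ^ 4 + 6 * A * x ^ 2 + 12 * B * x - A ^ 2) := by
  rw [S52E2_quartic_eval]; ring

theorem S52E2_quartic_map {S : Type*} [CommRing S] (f : R →+* S) (A B : R) :
    (S52E2_quartic A B).map f = S52E2_quartic (f A) (f B) := by
  simp only [S52E2_quartic, Polynomial.map_sub, Polynomial.map_add, Polynomial.map_mul,
    Polynomial.map_pow, Polynomial.map_X, Polynomial.map_C, Polynomial.map_ofNat, map_mul,
    map_pow, map_ofNat]

theorem S52E2_quartic_coeff_zero (A B : R) : (S52E2_quartic A B).coeff 0 = -(27 * A ^ 2) := by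
  unfold S52E2_quartic
  simp only [coeff_add, coeff_sub, coeff_C_mul, coeff_X_pow, coeff_X, coeff_C]
  norm_num

theorem S52E2_quartic_coeff_one (A B : R) : (S52E2_quartic A B).coeff 1 = 108 * B := by
  unfold S52E2_quartic
  simp only [coeff_add, coeff_sub, coeff_C_mul, coeff_X_pow, coeff_X, coeff_C]
  norm_num

theorem S52E2_quartic_coeff_two (A B : R) : (S52E2_quartic A B).coeff 2 = 18 * A := by
  unfold S52E2_quartic
  simp only [coeff_add, coeff_sub, coeff_C_mul, coeff_X_pow, coeff_X, coeff_C]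
  norm_num

theorem S52E2_quartic_coeff_three (A B : R) : (S52E2_quartic A B).coeff 3 = 0 := by
  unfold S52E2_quartic
  simp only [coeff_add, coeff_sub, coeff_C_mul, coeff_X_pow, coeff_X, coeff_C]
  norm_num

theorem S52E2_quartic_coeff_four (A B : R) : (S52E2_quartic A B).coeff 4 = 1 := by
  unfold S52E2_quartic
  simp only [coeff_add, coeff_sub, coeff_C_mul, coeff_X_pow, coeff_X, coeff_C]
  norm_num

theorem S52E2_quartic_natDegree_le (A B : R) : (S52E2_quartic A B).natDegree ≤ 4 := by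
  unfold S52E2_quartic
  compute_degree

theorem S52E2_quartic_coeff_of_lt (A B : R) {i : ℕ} (hi : 4 < i) :
    (S52E2_quartic A B).coeff i = 0 :=
  coeff_eq_zero_of_natDegree_lt (lt_of_le_of_lt (S52E2_quartic_natDegree_le A B) hi)

theorem S52E2_quartic_natDegree [Nontrivial R] (A B : R) :
    (S52E2_quartic A B).natDegree = 4 := by
  apply le_antisymm (S52E2_quartic_natDegree_le A B)
  apply le_natDegree_of_ne_zero
  rw [S52E2_quartic_coeff_four]
  exact one_ne_zero

theorem S52E2_quartic_monic [Nontrivial R] (A B : R) : (S52E2_quartic A B).Monic := by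
  unfold Polynomial.Monic Polynomial.leadingCoeff
  rw [S52E2_quartic_natDegree, S52E2_quartic_coeff_four]

/-- Expansion of the quartic as a sum over `Finset.range 5`. -/
theorem S52E2_quartic_eq_sum (A B : R) :
    S52E2_quartic A B = ∑ i ∈ Finset.range 5, C ((S52E2_quartic A B).coeff i) * X ^ i := by
  conv_lhs => rw [(S52E2_quartic A B).as_sum_range_C_mul_X_pow' (n := 5)
    (lt_of_le_of_lt (S52E2_quartic_natDegree_le A B) (by norm_num))]

end ring

section weights

variable {R : Type*} [CommRing R]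

/-- Weight bounds: if `deg A ≤ 2 w` and `deg B ≤ 3 w` then the coefficient of `z^i`
has degree at most `w (4 - i)`. -/
theorem S52E2_quartic_coeff_natDegree_le (A B : R[X]) (w : ℕ)
    (hA : A.natDegree ≤ 2 * w) (hB : B.natDegree ≤ 3 * w) (i : ℕ) (hi : i ≤ 4) :
    ((S52E2_quartic A B).coeff i).natDegree ≤ w * (4 - i) := by
  have h18 : ((18 : R[X]) * A).natDegree ≤ 2 * w := by
    have : (18 : R[X]) = C 18 := (map_ofNat C 18).symm
    rw [this]
    exact (natDegree_C_mul_le _ _).trans hA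
  have h108 : ((108 : R[X]) * B).natDegree ≤ 3 * w := by
    have : (108 : R[X]) = C 108 := (map_ofNat C 108).symm
    rw [this]
    exact (natDegree_C_mul_le _ _).trans hB
  have h27 : (-((27 : R[X]) * A ^ 2)).natDegree ≤ 4 * w := by
    have : (27 : R[X]) = C 27 := (map_ofNat C 27).symm
    rw [natDegree_neg, this]
    refine (natDegree_C_mul_le _ _).trans ?_
    refine (natDegree_pow_le).trans ?_
    nlinarith
  interval_cases i
  · rw [S52E2_quartic_coeff_zero]; simpa [mul_comm] using h27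
  · rw [S52E2_quartic_coeff_one]; simpa [mul_comm] using h108
  · rw [S52E2_quartic_coeff_two]; simpa [mul_comm] using h18
  · rw [S52E2_quartic_coeff_three]; simp
  · rw [S52E2_quartic_coeff_four]; simp

/-- The leading form of the quartic (weights `w`, `2 w`, `3 w`) is the quartic of the
top coefficients. -/
theorem S52E2_quartic_leadingForm (A B : R[X]) (w : ℕ)
    (hA : A.natDegree ≤ 2 * w) (_hB : B.natDegree ≤ 3 * w) :
    ∑ i ∈ Finset.range 5, C (((S52E2_quartic A B).coeff i).coeff (w * (4 - i))) * X ^ i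
      = S52E2_quartic (A.coeff (2 * w)) (B.coeff (3 * w)) := by
  have e18 : ((18 : R[X]) * A).coeff (w * 2) = 18 * A.coeff (2 * w) := by
    have : (18 : R[X]) = C 18 := (map_ofNat C 18).symm
    rw [this, coeff_C_mul, mul_comm w 2]
  have e108 : ((108 : R[X]) * B).coeff (w * 3) = 108 * B.coeff (3 * w) := by
    have : (108 : R[X]) = C 108 := (map_ofNat C 108).symm
    rw [this, coeff_C_mul, mul_comm w 3]
  have e27 : ((27 : R[X]) * A ^ 2).coeff (w * 4) = 27 * A.coeff (2 * w) ^ 2 := by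
    have : (27 : R[X]) = C 27 := (map_ofNat C 27).symm
    have h4 : w * 4 = 2 * (2 * w) := by ring
    rw [this, coeff_C_mul, h4, coeff_pow_of_natDegree_le hA]
  rw [Finset.sum_range_succ, Finset.sum_range_succ, Finset.sum_range_succ,
    Finset.sum_range_succ, Finset.sum_range_one]
  rw [S52E2_quartic_coeff_zero, S52E2_quartic_coeff_one, S52E2_quartic_coeff_two,
    S52E2_quartic_coeff_three, S52E2_quartic_coeff_four]
  simp only [Nat.sub_zero, Nat.add_one_sub_one, Nat.reduceSub, Nat.sub_self, mul_zero,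
    mul_one, coeff_neg, e18, e108, e27, coeff_zero, coeff_one_zero, pow_zero, pow_one]
  unfold S52E2_quartic
  simp only [map_neg, map_mul, map_pow, map_ofNat, map_zero, map_one]
  ring

/-- Top coefficients of the discriminant relation. -/
theorem S52E2_top_coeff_rel (A B D : R[X]) (Δ₀ : R) (w : ℕ)
    (hA : A.natDegree ≤ 2 * w) (hB : B.natDegree ≤ 3 * w) (d : ℕ) (hD : D.natDegree ≤ d)
    (hd : 5 * d = 6 * w)
    (hrel : 4 * A ^ 3 + 27 * B ^ 2 = C Δ₀ * D ^ 5) :
    4 * A.coeff (2 * w) ^ 3 + 27 * B.coeff (3 * w) ^ 2 = Δ₀ * D.coeff d ^ 5 := by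
  have h := congrArg (fun p => p.coeff (6 * w)) hrel
  simp only [coeff_add, coeff_C_mul] at h
  have h4 : (4 : R[X]) = C 4 := (map_ofNat C 4).symm
  have h27 : (27 : R[X]) = C 27 := (map_ofNat C 27).symm
  have e1 : (A ^ 3).coeff (6 * w) = A.coeff (2 * w) ^ 3 := by
    have : 6 * w = 3 * (2 * w) := by ring
    rw [this, coeff_pow_of_natDegree_le hA]
  have e2 : (B ^ 2).coeff (6 * w) = B.coeff (3 * w) ^ 2 := by
    have : 6 * w = 2 * (3 * w) := by ring
    rw [this, coeff_pow_of_natDegree_le hB]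
  have e3 : (D ^ 5).coeff (6 * w) = D.coeff d ^ 5 := by
    rw [← hd, coeff_pow_of_natDegree_le hD]
  rw [h4, h27, coeff_C_mul, coeff_C_mul, e1, e2, e3] at h
  exact h

end weights

section field

variable {K : Type*} [Field K]

/-- Bezout certificate: the quartic with constant coefficients is separable when
`4 a^3 + 27 b^2 ≠ 0` (and `2, 3` are invertible). -/
theorem S52E2_quartic_separable (h2 : (2 : K) ≠ 0) (h3 : (3 : K) ≠ 0) (a b : K)
    (hΔ : 4 * a ^ 3 + 27 * b ^ 2 ≠ 0) : (S52E2_quartic a b).Separable := by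
  have h324 : (324 : K) * (4 * a ^ 3 + 27 * b ^ 2) ≠ 0 := by
    have : (324 : K) = 2 ^ 2 * 3 ^ 4 := by norm_num
    rw [this]
    exact mul_ne_zero (mul_ne_zero (pow_ne_zero 2 h2) (pow_ne_zero 4 h3)) hΔ
  rw [Polynomial.separable_def]
  refine ⟨C ((324 * (4 * a ^ 3 + 27 * b ^ 2))⁻¹) * (-(C (48 * a)) - 4 * X ^ 2),
    C ((324 * (4 * a ^ 3 + 27 * b ^ 2))⁻¹) * (X ^ 3 + C (21 * a) * X + C (81 * b)), ?_⟩
  have hder : derivative (S52E2_quartic a b) = 4 * X ^ 3 + C (36 * a) * X + C (108 * b) := by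
    unfold S52E2_quartic
    simp only [derivative_sub, derivative_add, derivative_C_mul, derivative_X_pow, derivative_C,
      derivative_X]
    simp only [Nat.cast_ofNat, Nat.add_one_sub_one, map_mul, map_ofNat, pow_one]
    ring
  have hid : (-(C (48 * a)) - 4 * X ^ 2) * S52E2_quartic a b
      + (X ^ 3 + C (21 * a) * X + C (81 * b)) * (4 * X ^ 3 + C (36 * a) * X + C (108 * b))
      = C (324 * (4 * a ^ 3 + 27 * b ^ 2)) := by
    unfold S52E2_quartic
    simp only [map_mul, map_add, map_pow, map_ofNat]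
    ring
  rw [hder]
  calc C ((324 * (4 * a ^ 3 + 27 * b ^ 2))⁻¹) * (-(C (48 * a)) - 4 * X ^ 2) * S52E2_quartic a b
        + C ((324 * (4 * a ^ 3 + 27 * b ^ 2))⁻¹) * (X ^ 3 + C (21 * a) * X + C (81 * b))
          * (4 * X ^ 3 + C (36 * a) * X + C (108 * b))
      = C ((324 * (4 * a ^ 3 + 27 * b ^ 2))⁻¹) * ((-(C (48 * a)) - 4 * X ^ 2) * S52E2_quartic a b
        + (X ^ 3 + C (21 * a) * X + C (81 * b)) * (4 * X ^ 3 + C (36 * a) * X + C (108 * b))) := by
        ring
    _ = 1 := by rw [hid, ← map_mul, inv_mul_cancel₀ h324, map_one]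

/-- If the quartic of `(a, b)` has no root in `K` then neither has `Ψ₃`. -/
theorem S52E2_psi3_ne_zero_of_quartic (a b : K)
    (h : ∀ z : K, (S52E2_quartic a b).eval z ≠ 0) (x : K) :
    3 * x ^ 4 + 6 * a * x ^ 2 + 12 * b * x - a ^ 2 ≠ 0 := by
  intro hx
  apply h (3 * x)
  rw [S52E2_quartic_eval_three_mul, hx, mul_zero]

/-- **WP-E2 in the shape consumed by WP-E1**: the monic quartic of the family has no root
in `K[X]`. -/
theorem S52E2_quartic_no_root [CharZero K]
    (A B D : K[X]) (Δ₀ : K) (hΔ₀ : Δ₀ ≠ 0)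
    (hrel : 4 * A ^ 3 + 27 * B ^ 2 = C Δ₀ * D ^ 5)
    (hsep : D.Separable) (hcop : IsCoprime A D) (hdeg : 0 < D.natDegree)
    (Q : K[X]) : (S52E2_quartic A B).eval Q ≠ 0 := by
  intro h
  apply S52E2_no_polynomial_root A B D Δ₀ hΔ₀ hrel hsep hcop hdeg (C (3⁻¹ : K) * Q)
  have h3 : (3 : K[X]) * (C (3⁻¹ : K) * Q) = Q := by
    have : (3 : K[X]) = C 3 := (map_ofNat C 3).symm
    rw [this, ← mul_assoc, ← map_mul, mul_inv_cancel₀ (by norm_num : (3 : K) ≠ 0), map_one,
      one_mul]
  have h27 : (27 : K[X]) * (3 * (C (3⁻¹ : K) * Q) ^ 4 + 6 * A * (C (3⁻¹ : K) * Q) ^ 2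
      + 12 * B * (C (3⁻¹ : K) * Q) - A ^ 2) = 0 := by
    rw [← S52E2_quartic_eval_three_mul, h3, h]
  have h27' : (27 : K[X]) ≠ 0 := by
    have : (27 : K[X]) = C 27 := (map_ofNat C 27).symm
    rw [this]
    exact C_ne_zero.mpr (by norm_num)
  exact (mul_eq_zero.mp h27).resolve_left h27'

end field

end Fermat.Agent.H95
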