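import Mathlib.Tactic.Ring
import Mathlib.Algebra.Ring.Basic
import Mathlib.Algebra.Ring.Defs

/-!
# P-S52 / WP-E3: the explicit mod-5 family `D`, `A`, `B` and its ring identities

`E_t : y^2 = x^3 + A(a,b,t) x + B(a,b,t)` is the Rubin-Silverberg family of curves with
the same mod-5 representation as `E : y^2 = x^3 + a x + b`; `D(a,b,t)` is the icosahedral
form, `4 A^3 + 27 B^2 = (4 a^3 + 27 b^2) D^5`.  To stay inside commutative rings we use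
`S52_A3 = 3 A` and `S52_B27 = 27 B` (integer coefficients).

All statements in this file are polynomial identities proved by `ring`.
-/

namespace Fermat.Agent.H95

/-- The icosahedral form `D(a,b,t)` of the mod-5 family (degree 12 in `t`). -/
def S52_D {R : Type*} [CommRing R] (a b t : R) : R :=
    (1) +
    (22 * a) * t ^ 2 +
    (-220 * b) * t ^ 3 +
    (-165 * a ^ 2) * t ^ 4 +
    (528 * a * b) * t ^ 5 +
    (-2640 * b ^ 2 - 220 * a ^ 3) * t ^ 6 +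
    (-264 * a ^ 2 * b) * t ^ 7 +
    (-5280 * a * b ^ 2 - 825 * a ^ 4) * t ^ 8 +
    (17600 * b ^ 3 + 2640 * a ^ 3 * b) * t ^ 9 +
    (3696 * a ^ 2 * b ^ 2 + 550 * a ^ 5) * t ^ 10 +
    (-2560 * a * b ^ 3 - 380 * a ^ 4 * b) * t ^ 11 +
    (6400 * b ^ 4 + 1792 * a ^ 3 * b ^ 2 + 125 * a ^ 6) * t ^ 12

/-- The formal `t`-derivative of `S52_D`. -/
def S52_D1 {R : Type*} [CommRing R] (a b t : R) : R :=
    (44 * a) * t +
    (-660 * b) * t ^ 2 +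
    (-660 * a ^ 2) * t ^ 3 +
    (2640 * a * b) * t ^ 4 +
    (-15840 * b ^ 2 - 1320 * a ^ 3) * t ^ 5 +
    (-1848 * a ^ 2 * b) * t ^ 6 +
    (-42240 * a * b ^ 2 - 6600 * a ^ 4) * t ^ 7 +
    (158400 * b ^ 3 + 23760 * a ^ 3 * b) * t ^ 8 +
    (36960 * a ^ 2 * b ^ 2 + 5500 * a ^ 5) * t ^ 9 +
    (-28160 * a * b ^ 3 - 4180 * a ^ 4 * b) * t ^ 10 +
    (76800 * b ^ 4 + 21504 * a ^ 3 * b ^ 2 + 1500 * a ^ 6) * t ^ 11

/-- The formal second `t`-derivative of `S52_D`. -/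
def S52_D2 {R : Type*} [CommRing R] (a b t : R) : R :=
    (44 * a) +
    (-1320 * b) * t +
    (-1980 * a ^ 2) * t ^ 2 +
    (10560 * a * b) * t ^ 3 +
    (-79200 * b ^ 2 - 6600 * a ^ 3) * t ^ 4 +
    (-11088 * a ^ 2 * b) * t ^ 5 +
    (-295680 * a * b ^ 2 - 46200 * a ^ 4) * t ^ 6 +
    (1267200 * b ^ 3 + 190080 * a ^ 3 * b) * t ^ 7 +
    (332640 * a ^ 2 * b ^ 2 + 49500 * a ^ 5) * t ^ 8 +
    (-281600 * a * b ^ 3 - 41800 * a ^ 4 * b) * t ^ 9 +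
    (844800 * b ^ 4 + 236544 * a ^ 3 * b ^ 2 + 16500 * a ^ 6) * t ^ 10

/-- `3 A(a,b,t)`: three times the `x`-coefficient of the family (degree 20 in `t`). -/
def S52_A3 {R : Type*} [CommRing R] (a b t : R) : R :=
    (3 * a) +
    (-90 * b) * t +
    (-190 * a ^ 2) * t ^ 2 +
    (1710 * a * b) * t ^ 3 +
    (-12825 * b ^ 2 - 285 * a ^ 3) * t ^ 4 +
    (-7752 * a ^ 2 * b) * t ^ 5 +
    (-47880 * a * b ^ 2 - 11400 * a ^ 4) * t ^ 6 +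
    (205200 * b ^ 3 + 43320 * a ^ 3 * b) * t ^ 7 +
    (-281580 * a ^ 2 * b ^ 2 - 37050 * a ^ 5) * t ^ 8 +
    (2964000 * a * b ^ 3 + 429780 * a ^ 4 * b) * t ^ 9 +
    (-8892000 * b ^ 4 - 468312 * a ^ 3 * b ^ 2 + 123500 * a ^ 6) * t ^ 10 +
    (-6856720 * a ^ 2 * b ^ 3 - 1012700 * a ^ 5 * b) * t ^ 11 +
    (7113600 * a * b ^ 4 - 200070 * a ^ 4 * b ^ 2 - 185250 * a ^ 7) * t ^ 12 +
    (-16416000 * b ^ 5 - 966720 * a ^ 3 * b ^ 3 + 216600 * a ^ 6 * b) * t ^ 13 +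
    (-17966400 * a ^ 2 * b ^ 4 - 4585080 * a ^ 5 * b ^ 2 - 285000 * a ^ 8) * t ^ 14 +
    (43776000 * a * b ^ 5 + 12256368 * a ^ 4 * b ^ 3 + 855000 * a ^ 7 * b) * t ^ 15 +
    (-82080000 * b ^ 6 - 25426560 * a ^ 3 * b ^ 4 - 2205900 * a ^ 6 * b ^ 2 - 35625 * a ^ 9) * t ^ 16 +
    (-11308800 * a ^ 2 * b ^ 5 - 3310560 * a ^ 5 * b ^ 3 - 242250 * a ^ 8 * b) * t ^ 17 +
    (-29184000 * a * b ^ 6 - 14072160 * a ^ 4 * b ^ 4 - 2245800 * a ^ 7 * b ^ 2 - 118750 * a ^ 10) * t ^ 18 +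
    (46080000 * b ^ 7 + 20889600 * a ^ 3 * b ^ 5 + 3154960 * a ^ 6 * b ^ 3 + 158750 * a ^ 9 * b) * t ^ 19 +
    (2816000 * a ^ 2 * b ^ 6 + 1261568 * a ^ 5 * b ^ 4 + 188375 * a ^ 8 * b ^ 2 + 9375 * a ^ 11) * t ^ 20

/-- `27 B(a,b,t)`: 27 times the constant coefficient of the family (degree 30 in `t`). -/
def S52_B27 {R : Type*} [CommRing R] (a b t : R) : R :=
    (27 * b) +
    (180 * a ^ 2) * t +
    (-3915 * a * b) * t ^ 2 +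
    (39150 * b ^ 2 - 2320 * a ^ 3) * t ^ 3 +
    (82215 * a ^ 2 * b) * t ^ 4 +
    (-211410 * a * b ^ 2 + 63684 * a ^ 4) * t ^ 5 +
    (1057050 * b ^ 3 - 437175 * a ^ 3 * b) * t ^ 6 +
    (5872500 * a ^ 2 * b ^ 2 + 417600 * a ^ 5) * t ^ 7 +
    (-32416200 * a * b ^ 3 - 2851425 * a ^ 4 * b) * t ^ 8 +
    (108054000 * b ^ 4 + 21010500 * a ^ 3 * b ^ 2 + 1800900 * a ^ 6) * t ^ 9 +
    (-162441180 * a ^ 2 * b ^ 3 - 27403695 * a ^ 5 * b) * t ^ 10 +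
    (1642420800 * a * b ^ 4 + 225412650 * a ^ 4 * b ^ 2 - 4002000 * a ^ 7) * t ^ 11 +
    (-4106052000 * b ^ 5 + 403001400 * a ^ 3 * b ^ 3 + 153026475 * a ^ 6 * b) * t ^ 12 +
    (-4516657200 * a ^ 2 * b ^ 4 - 290845350 * a ^ 5 * b ^ 2 + 57028500 * a ^ 8) * t ^ 13 +
    (-3587092650 * a ^ 4 * b ^ 3 - 533216475 * a ^ 7 * b) * t ^ 14 +
    (9927521280 * a ^ 3 * b ^ 4 + 1473616440 * a ^ 6 * b ^ 2) * t ^ 15 +
    (-55842307200 * a ^ 2 * b ^ 5 - 13184989200 * a ^ 5 * b ^ 3 - 727113375 * a ^ 8 * b) * t ^ 16 +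
    (197090496000 * a * b ^ 6 + 38961871200 * a ^ 4 * b ^ 4 - 479039400 * a ^ 7 * b ^ 2 - 285142500 * a ^ 10) * t ^ 17 +
    (-328484160000 * b ^ 7 + 18979084800 * a ^ 3 * b ^ 5 + 25708447800 * a ^ 6 * b ^ 3 + 2323911375 * a ^ 9 * b) * t ^ 18 +
    (-402249024000 * a ^ 2 * b ^ 6 - 112510627200 * a ^ 5 * b ^ 4 - 7164280350 * a ^ 8 * b ^ 2 + 100050000 * a ^ 11) * t ^ 19 +
    (484081920000 * a * b ^ 7 + 81085642560 * a ^ 4 * b ^ 5 - 7484220240 * a ^ 7 * b ^ 3 - 1314406875 * a ^ 10 * b) * t ^ 20 +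
    (-691545600000 * b ^ 8 - 160182451200 * a ^ 3 * b ^ 6 - 12542268000 * a ^ 6 * b ^ 4 - 2110554750 * a ^ 9 * b ^ 2 - 225112500 * a ^ 12) * t ^ 21 +
    (-214379136000 * a ^ 2 * b ^ 7 - 53479526400 * a ^ 5 * b ^ 5 - 1774186650 * a ^ 8 * b ^ 3 + 213856875 * a ^ 11 * b) * t ^ 22 +
    (-432967680000 * a * b ^ 8 - 316019635200 * a ^ 4 * b ^ 6 - 76988736000 * a ^ 7 * b ^ 4 - 7639339500 * a ^ 10 * b ^ 2 - 261000000 * a ^ 13) * t ^ 23 +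
    (541209600000 * b ^ 9 + 355928832000 * a ^ 3 * b ^ 7 + 81588182400 * a ^ 6 * b ^ 5 + 7780253400 * a ^ 9 * b ^ 3 + 258553125 * a ^ 12 * b) * t ^ 24 +
    (-426954240000 * a ^ 2 * b ^ 8 - 247481252352 * a ^ 5 * b ^ 6 - 54284262480 * a ^ 8 * b ^ 4 - 5342017500 * a ^ 11 * b ^ 2 - 199012500 * a ^ 14) * t ^ 25 +
    (1443225600000 * a * b ^ 9 + 853143436800 * a ^ 4 * b ^ 7 + 189381265920 * a ^ 7 * b ^ 5 + 18709654500 * a ^ 10 * b ^ 3 + 694096875 * a ^ 13 * b) * t ^ 26 +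
    (-1603584000000 * b ^ 10 - 874487808000 * a ^ 3 * b ^ 8 - 166439324160 * a ^ 6 * b ^ 6 - 10940702400 * a ^ 9 * b ^ 4 + 205863750 * a ^ 12 * b ^ 2 + 36250000 * a ^ 15) * t ^ 27 +
    (-251228160000 * a ^ 2 * b ^ 9 - 148839321600 * a ^ 5 * b ^ 7 - 33071122080 * a ^ 8 * b ^ 5 - 3266241000 * a ^ 11 * b ^ 3 - 120984375 * a ^ 14 * b) * t ^ 28 +
    (-88473600000 * a * b ^ 10 - 81626112000 * a ^ 4 * b ^ 8 - 28951664640 * a ^ 7 * b ^ 6 - 4995135600 * a ^ 10 * b ^ 4 - 422306250 * a ^ 13 * b ^ 2 - 14062500 * a ^ 16) * t ^ 29 +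
    (88473600000 * b ^ 11 + 68485120000 * a ^ 3 * b ^ 9 + 21165619200 * a ^ 6 * b ^ 7 + 3265084416 * a ^ 9 * b ^ 5 + 251446250 * a ^ 12 * b ^ 3 + 7734375 * a ^ 15 * b) * t ^ 30

/-- Bezout certificate, cofactor of `D`. -/
def S52_certU {R : Type*} [CommRing R] (a b t : R) : R :=
    (680244480000 * b ^ 8 + 403107840000 * a ^ 3 * b ^ 6 + 89579520000 * a ^ 6 * b ^ 4 + 8847360000 * a ^ 9 * b ^ 2 + 327680000 * a ^ 12) +
    (-304449024000 * a ^ 2 * b ^ 7 - 135818572032 * a ^ 5 * b ^ 5 - 20196271040 * a ^ 8 * b ^ 3 - 1001038500 * a ^ 11 * b) * t +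
    (-1265172480000 * a * b ^ 8 - 1172298983680 * a ^ 4 * b ^ 6 - 355326238784 * a ^ 7 * b ^ 4 - 44547990300 * a ^ 10 * b ^ 2 - 2003375000 * a ^ 13) * t ^ 2 +
    (12651724800000 * b ^ 9 + 9561428377600 * a ^ 3 * b ^ 7 + 2588377796224 * a ^ 6 * b ^ 5 + 301915175760 * a ^ 9 * b ^ 3 + 12913670000 * a ^ 12 * b) * t ^ 3 +
    (-12293563392000 * a ^ 2 * b ^ 8 - 6434435701760 * a ^ 5 * b ^ 6 - 1238497757112 * a ^ 8 * b ^ 4 - 103189003500 * a ^ 11 * b ^ 2 - 3104750000 * a ^ 14) * t ^ 4 +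
    (27395850240000 * a * b ^ 9 + 14662222981120 * a ^ 4 * b ^ 7 + 2903959145472 * a ^ 7 * b ^ 5 + 251335895800 * a ^ 10 * b ^ 3 + 7977145000 * a ^ 13 * b) * t ^ 5 +
    (-136979251200000 * b ^ 10 - 129351738982400 * a ^ 3 * b ^ 8 - 46958332715008 * a ^ 6 * b ^ 6 - 8291307185920 * a ^ 9 * b ^ 4 - 717223281500 * a ^ 12 * b ^ 2 - 24431000000 * a ^ 15) * t ^ 6 +
    (136878686208000 * a ^ 2 * b ^ 9 + 81767091732480 * a ^ 5 * b ^ 7 + 18316476440064 * a ^ 8 * b ^ 5 + 1823526460800 * a ^ 11 * b ^ 3 + 68077350000 * a ^ 14 * b) * t ^ 7 +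
    (19853475840000 * a * b ^ 10 + 50165183692800 * a ^ 4 * b ^ 8 + 25504112848896 * a ^ 7 * b ^ 6 + 5374603412640 * a ^ 10 * b ^ 4 + 517829647500 * a ^ 13 * b ^ 2 + 18933750000 * a ^ 16) * t ^ 8 +
    (-66178252800000 * b ^ 11 - 78188380160000 * a ^ 3 * b ^ 9 - 31912739020800 * a ^ 6 * b ^ 7 - 6038801184768 * a ^ 9 * b ^ 5 - 545560345000 * a ^ 12 * b ^ 3 - 19109062500 * a ^ 15 * b) * t ^ 9 +
    (80884531200000 * a ^ 2 * b ^ 10 + 58883938713600 * a ^ 5 * b ^ 8 + 17136664393728 * a ^ 8 * b ^ 6 + 2492024832000 * a ^ 11 * b ^ 4 + 181076775000 * a ^ 14 * b ^ 2 + 5259375000 * a ^ 17) * t ^ 10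

/-- Bezout certificate, cofactor of `D'`. -/
def S52_certV {R : Type*} [CommRing R] (a b t : R) : R :=
    (6919296000 * a * b ^ 7 + 3086785728 * a ^ 4 * b ^ 5 + 459006160 * a ^ 7 * b ^ 3 + 22750875 * a ^ 10 * b) +
    (-207578880000 * b ^ 8 - 128608975360 * a ^ 3 * b ^ 6 - 29829071264 * a ^ 6 * b ^ 4 - 3069962550 * a ^ 9 * b ^ 2 - 118308750 * a ^ 12) * t +
    (125113331200 * a ^ 2 * b ^ 7 + 55845834880 * a ^ 5 * b ^ 5 + 8308881130 * a ^ 8 * b ^ 3 + 412058625 * a ^ 11 * b) * t ^ 2 +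
    (288516096000 * a * b ^ 8 + 288293955840 * a ^ 4 * b ^ 6 + 90409418880 * a ^ 7 * b ^ 4 + 11557995900 * a ^ 10 * b ^ 2 + 526418750 * a ^ 13) * t ^ 3 +
    (-2163870720000 * b ^ 9 - 1717949798400 * a ^ 3 * b ^ 7 - 479674176960 * a ^ 6 * b ^ 5 - 57152646980 * a ^ 9 * b ^ 3 - 2482851250 * a ^ 12 * b) * t ^ 4 +
    (2206127616000 * a ^ 2 * b ^ 8 + 1161810417152 * a ^ 5 * b ^ 6 + 225422927576 * a ^ 8 * b ^ 4 + 18987641750 * a ^ 11 * b ^ 2 + 580387500 * a ^ 14) * t ^ 5 +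
    (-3548160000000 * a * b ^ 9 - 1873597017600 * a ^ 4 * b ^ 7 - 364731155712 * a ^ 7 * b ^ 5 - 30852417750 * a ^ 10 * b ^ 3 - 948543750 * a ^ 13 * b) * t ^ 6 +
    (15206400000000 * b ^ 10 + 14956609536000 * a ^ 3 * b ^ 8 + 5573322332160 * a ^ 6 * b ^ 6 + 1002004608000 * a ^ 9 * b ^ 4 + 87825003750 * a ^ 12 * b ^ 2 + 3021562500 * a ^ 15) * t ^ 7 +
    (-15522017280000 * a ^ 2 * b ^ 9 - 9273170227200 * a ^ 5 * b ^ 7 - 2077437753600 * a ^ 8 * b ^ 5 - 206839578000 * a ^ 11 * b ^ 3 - 7722515625 * a ^ 14 * b) * t ^ 8 +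
    (-1838284800000 * a * b ^ 10 - 4939815936000 * a ^ 4 * b ^ 8 - 2537485998080 * a ^ 7 * b ^ 6 - 537034528800 * a ^ 10 * b ^ 4 - 51864450000 * a ^ 13 * b ^ 2 - 1899218750 * a ^ 16) * t ^ 9 +
    (5514854400000 * b ^ 11 + 6740377600000 * a ^ 3 * b ^ 9 + 2793402050560 * a ^ 6 * b ^ 7 + 533204415744 * a ^ 9 * b ^ 5 + 48442350000 * a ^ 12 * b ^ 3 + 1703453125 * a ^ 15 * b) * t ^ 10 +
    (-6740377600000 * a ^ 2 * b ^ 10 - 4906994892800 * a ^ 5 * b ^ 8 - 1428055366144 * a ^ 8 * b ^ 6 - 207668736000 * a ^ 11 * b ^ 4 - 15089731250 * a ^ 14 * b ^ 2 - 438281250 * a ^ 17) * t ^ 11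

/-- Bezout certificate for `D` and `D'`: the discriminant of `D` is a power of `Δ₀`. -/
theorem S52_bezout {R : Type*} [CommRing R] (a b t : R) :
    S52_certU a b t * S52_D a b t + S52_certV a b t * S52_D1 a b t
      = 1280000 * (4 * a ^ 3 + 27 * b ^ 2) ^ 4 := by
  unfold S52_certU S52_certV S52_D S52_D1
  ring

/-- Hessian identity: `528 A = 12 D D'' - 11 D'^2`. -/
theorem S52_hessian {R : Type*} [CommRing R] (a b t : R) :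
    176 * S52_A3 a b t = 12 * S52_D a b t * S52_D2 a b t - 11 * S52_D1 a b t ^ 2 := by
  unfold S52_A3 S52_D S52_D1 S52_D2
  ring

end Fermat.Agent.H95
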