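import Fermat.Agent.H95.S52FamilyFinal
import Fermat.Agent.H38.RSDefs
import Fermat.Agent.H37.ThreeTorsionQ

/-!
# P-S52 / WP-E: bridge to the `(c₄, c₆)` normalisation (`Fermat.Agent.H38.RSDefs`)
and to the long-form 3-division polynomial (`Fermat.Agent.H37.exists_rat_root_psi3`)

* `S52_D (-27 c₄) (-54 c₆) t = rsDisc c₄ c₆ t`, `A = -27 rsC4`, `B = -54 rsC6`;
* `S52_rs_exists_specialization`: the final WP-E theorem in terms of `rsDisc/rsC4/rsC6`;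
* `S52_psi3_long_short`: `Ψ₃` of a general Weierstrass curve at `q` is `Ψ₃` of the short model
  `y^2 = x^3 - 27 c₄ x - 54 c₆` at `36 q + 3 b₂`;
* `S52_modRepIsIrreducible_three`: an integral Weierstrass curve whose short `Ψ₃` has no rational
  root has irreducible mod-3 representation.
-/

namespace Fermat.Agent.H95

open Fermat.Agent.H38

section bridge

variable {R : Type*} [CommRing R]

theorem S52_D_eq_rsDisc (c₄ c₆ t : R) : S52_D (-27 * c₄) (-54 * c₆) t = rsDisc c₄ c₆ t := by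
  unfold S52_D rsDisc
  ring

theorem S52_A3_eq_rsC4 (c₄ c₆ t : R) : S52_A3 (-27 * c₄) (-54 * c₆) t = -81 * rsC4 c₄ c₆ t := by
  unfold S52_A3 rsC4
  ring

theorem S52_B27_eq_rsC6 (c₄ c₆ t : R) :
    S52_B27 (-27 * c₄) (-54 * c₆) t = -1458 * rsC6 c₄ c₆ t := by
  unfold S52_B27 rsC6
  ring

end bridge

section field

variable {K : Type*} [Field K]

theorem S52_A_eq_rsC4 (h3 : (3 : K) ≠ 0) (c₄ c₆ t : K) :
    S52_A (-27 * c₄) (-54 * c₆) t = -27 * rsC4 c₄ c₆ t := by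
  unfold S52_A
  rw [S52_A3_eq_rsC4]
  field_simp
  ring

theorem S52_B_eq_rsC6 (h3 : (3 : K) ≠ 0) (c₄ c₆ t : K) :
    S52_B (-27 * c₄) (-54 * c₆) t = -54 * rsC6 c₄ c₆ t := by
  have h27 : (27 : K) ≠ 0 := by
    have : (27 : K) = 3 ^ 3 := by norm_num
    rw [this]; exact pow_ne_zero 3 h3
  unfold S52_B
  rw [S52_B27_eq_rsC6]
  field_simp
  ring

/-- The discriminant relation in the `(c₄, c₆)` normalisation:
`C₄(t)^3 - C₆(t)^2 = (c₄^3 - c₆^2) D(t)^5`. -/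
theorem S52_rs_disc_rel (h2 : (2 : K) ≠ 0) (h3 : (3 : K) ≠ 0) (c₄ c₆ t : K) :
    rsC4 c₄ c₆ t ^ 3 - rsC6 c₄ c₆ t ^ 2 = (c₄ ^ 3 - c₆ ^ 2) * rsDisc c₄ c₆ t ^ 5 := by
  have h := S52_disc_rel h3 (-27 * c₄) (-54 * c₆) t
  rw [S52_A_eq_rsC4 h3, S52_B_eq_rsC6 h3, S52_D_eq_rsDisc] at h
  have hc : (78732 : K) ≠ 0 := by
    have : (78732 : K) = 2 ^ 2 * 3 ^ 9 := by norm_num
    rw [this]
    exact mul_ne_zero (pow_ne_zero 2 h2) (pow_ne_zero 9 h3)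
  apply mul_left_cancel₀ hc
  linear_combination (-1 : K) * h

end field

/-- **WP-E, final form, `(c₄, c₆)` normalisation.** -/
theorem S52_rs_exists_specialization (c₄ c₆ : ℚ) (hΔ : c₄ ^ 3 - c₆ ^ 2 ≠ 0)
    (M : ℕ) (hM : 0 < M) (N0 : ℕ) :
    ∃ n : ℕ, N0 ≤ n ∧ M ∣ n ∧ rsDisc c₄ c₆ (n : ℚ) ≠ 0 ∧
      ∀ y : ℚ, 3 * y ^ 4 + 6 * (-27 * rsC4 c₄ c₆ (n : ℚ)) * y ^ 2
        + 12 * (-54 * rsC6 c₄ c₆ (n : ℚ)) * y - (-27 * rsC4 c₄ c₆ (n : ℚ)) ^ 2 ≠ 0 := by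
  have hΔ' : 4 * (-27 * c₄) ^ 3 + 27 * (-54 * c₆) ^ 2 ≠ 0 := by
    intro h
    apply hΔ
    have : (78732 : ℚ) * (c₄ ^ 3 - c₆ ^ 2) = 0 := by linear_combination (-1 : ℚ) * h
    rcases mul_eq_zero.mp this with h' | h'
    · norm_num at h'
    · exact h'
  obtain ⟨n, hn, hMn, hD, hroot⟩ :=
    S52_exists_specialization (-27 * c₄) (-54 * c₆) hΔ' M hM N0
  refine ⟨n, hn, hMn, ?_, ?_⟩
  · rwa [S52_D_eq_rsDisc] at hD
  · intro y
    have := hroot y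
    rwa [S52_A_eq_rsC4 (by norm_num), S52_B_eq_rsC6 (by norm_num)] at this

/-- The long-form 3-division polynomial at `q` is the short-form one at `36 q + 3 b₂`. -/
theorem S52_psi3_long_short {R : Type*} [CommRing R] (W : WeierstrassCurve R) (q : R) :
    3 * (36 * q + 3 * W.b₂) ^ 4 + 6 * (-27 * W.c₄) * (36 * q + 3 * W.b₂) ^ 2
        + 12 * (-54 * W.c₆) * (36 * q + 3 * W.b₂) - (-27 * W.c₄) ^ 2
      = 1679616 * (3 * q ^ 4 + W.b₂ * q ^ 3 + 3 * W.b₄ * q ^ 2 + 3 * W.b₆ * q + W.b₈) := by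
  simp only [WeierstrassCurve.c₄, WeierstrassCurve.c₆]
  linear_combination (-419904 : R) * W.b_relation

/-- An integral Weierstrass curve with `Δ ≠ 0` whose short-form 3-division polynomial
`3 y^4 + 6 A y^2 + 12 B y - A^2` (`A = -27 c₄`, `B = -54 c₆`) has no rational root has
irreducible mod-3 representation. -/
theorem S52_modRepIsIrreducible_three (W : WeierstrassCurve ℤ) (hΔ : W.Δ ≠ 0)
    (h : ∀ y : ℚ, 3 * y ^ 4 + 6 * (-27 * (W.c₄ : ℚ)) * y ^ 2 + 12 * (-54 * (W.c₆ : ℚ)) * y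
      - (-27 * (W.c₄ : ℚ)) ^ 2 ≠ 0) : W.ModRepIsIrreducible 3 := by
  by_contra hred
  obtain ⟨q, hq⟩ := Fermat.Agent.H37.exists_rat_root_psi3 W hΔ hred
  apply h (36 * q + 3 * (W.b₂ : ℚ))
  have key := S52_psi3_long_short (W.map (Int.castRingHom ℚ)) q
  simp only [WeierstrassCurve.map_b₂, WeierstrassCurve.map_b₄, WeierstrassCurve.map_b₆,
    WeierstrassCurve.map_b₈, WeierstrassCurve.map_c₄, WeierstrassCurve.map_c₆,
    eq_intCast] at key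
  rw [key, hq, mul_zero]

/-- Irreducibility at 3 for an integral model of a member of the family. -/
theorem S52_rs_modRepIsIrreducible_three (W' : WeierstrassCurve ℤ) (hΔ : W'.Δ ≠ 0)
    (c₄ c₆ t : ℚ) (h4 : (W'.c₄ : ℚ) = rsC4 c₄ c₆ t) (h6 : (W'.c₆ : ℚ) = rsC6 c₄ c₆ t)
    (h : ∀ y : ℚ, 3 * y ^ 4 + 6 * (-27 * rsC4 c₄ c₆ t) * y ^ 2
        + 12 * (-54 * rsC6 c₄ c₆ t) * y - (-27 * rsC4 c₄ c₆ t) ^ 2 ≠ 0) :
    W'.ModRepIsIrreducible 3 := by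
  apply S52_modRepIsIrreducible_three W' hΔ
  rw [h4, h6]
  exact h

end Fermat.Agent.H95
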