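import Fermat.Agent.H95.S52FamilyRel
import Fermat.Agent.H95.S52E2Quartic
import Mathlib.Algebra.Polynomial.Derivative
import Mathlib.Tactic.ComputeDegree
import Mathlib.Tactic.LinearCombination

/-!
# P-S52 / WP-E3: the explicit family as polynomials in `t`

`S52_Dpoly a b`, `S52_Apoly a b`, `S52_Bpoly a b : K[X]` and the hypotheses of WP-E2 for
them: discriminant relation, separability of `D`, coprimality of `A` and `D`, degrees.
-/

namespace Fermat.Agent.H95

open Polynomial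

section defs

variable {K : Type*} [Field K]

/-- `D(a,b,t)` as a polynomial in `t`. -/
noncomputable def S52_Dpoly (a b : K) : K[X] := S52_D (C a) (C b) X

/-- `A(a,b,t)` as a polynomial in `t`. -/
noncomputable def S52_Apoly (a b : K) : K[X] := C (3⁻¹ : K) * S52_A3 (C a) (C b) X

/-- `B(a,b,t)` as a polynomial in `t`. -/
noncomputable def S52_Bpoly (a b : K) : K[X] := C (27⁻¹ : K) * S52_B27 (C a) (C b) X

theorem S52_Dpoly_eval (a b t : K) : (S52_Dpoly a b).eval t = S52_D a b t := by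
  unfold S52_Dpoly S52_D
  simp only [eval_add, eval_sub, eval_mul, eval_pow, eval_C, eval_X, eval_ofNat, eval_one,
    eval_neg]

theorem S52_Apoly_eval (a b t : K) : (S52_Apoly a b).eval t = 3⁻¹ * S52_A3 a b t := by
  unfold S52_Apoly S52_A3
  simp only [eval_add, eval_sub, eval_mul, eval_pow, eval_C, eval_X, eval_ofNat,
    eval_neg]

theorem S52_Bpoly_eval (a b t : K) : (S52_Bpoly a b).eval t = 27⁻¹ * S52_B27 a b t := by
  unfold S52_Bpoly S52_B27
  simp only [eval_add, eval_sub, eval_mul, eval_pow, eval_C, eval_X, eval_ofNat,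
    eval_neg]

theorem S52_Dpoly_natDegree_le (a b : K) : (S52_Dpoly a b).natDegree ≤ 12 := by
  unfold S52_Dpoly S52_D
  compute_degree

theorem S52_Apoly_natDegree_le (a b : K) : (S52_Apoly a b).natDegree ≤ 20 := by
  unfold S52_Apoly S52_A3
  compute_degree

theorem S52_Bpoly_natDegree_le (a b : K) : (S52_Bpoly a b).natDegree ≤ 30 := by
  unfold S52_Bpoly S52_B27
  compute_degree

theorem S52_Dpoly_derivative (a b : K) :
    derivative (S52_Dpoly a b) = S52_D1 (C a) (C b) X := by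
  unfold S52_Dpoly S52_D S52_D1
  simp only [derivative_add, derivative_sub, derivative_mul, derivative_C,
    derivative_X, derivative_pow, derivative_ofNat, derivative_one, derivative_neg]
  simp only [Nat.cast_ofNat, Nat.add_one_sub_one]
  have h (n : ℕ) [n.AtLeastTwo] : (C (OfNat.ofNat n : K) : K[X]) = OfNat.ofNat n := map_ofNat C n
  simp only [h]
  ring

theorem S52_D1_derivative (a b : K) :
    derivative (S52_D1 (C a) (C b) X) = S52_D2 (C a) (C b) X := by
  unfold S52_D1 S52_D2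
  simp only [derivative_add, derivative_sub, derivative_mul, derivative_C,
    derivative_X, derivative_pow, derivative_ofNat, derivative_neg]
  simp only [Nat.cast_ofNat, Nat.add_one_sub_one]
  have h (n : ℕ) [n.AtLeastTwo] : (C (OfNat.ofNat n : K) : K[X]) = OfNat.ofNat n := map_ofNat C n
  simp only [h]
  ring

/-- The discriminant relation for the polynomial family. -/
theorem S52_poly_hrel (h3 : (3 : K) ≠ 0) (a b : K) :
    4 * S52_Apoly a b ^ 3 + 27 * S52_Bpoly a b ^ 2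
      = C (4 * a ^ 3 + 27 * b ^ 2) * S52_Dpoly a b ^ 5 := by
  have h := S52_hrel (C a) (C b) (X : K[X])
  have e3 : (C (3⁻¹ : K) : K[X]) * 3 = 1 := by
    have : (3 : K[X]) = C 3 := (map_ofNat C 3).symm
    rw [this, ← map_mul, inv_mul_cancel₀ h3, map_one]
  have e27 : (C (27⁻¹ : K) : K[X]) * 27 = 1 := by
    have h27 : (27 : K) ≠ 0 := by
      have : (27 : K) = 3 ^ 3 := by norm_num
      rw [this]; exact pow_ne_zero 3 h3
    have : (27 : K[X]) = C 27 := (map_ofNat C 27).symm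
    rw [this, ← map_mul, inv_mul_cancel₀ h27, map_one]
  have e3' : (C (3⁻¹ : K) : K[X]) ^ 3 = C (27⁻¹ : K) := by
    rw [← map_pow]; congr 1
    rw [inv_pow]; norm_num
  have hΔ : (C (4 * a ^ 3 + 27 * b ^ 2) : K[X]) = 4 * C a ^ 3 + 27 * C b ^ 2 := by
    simp only [map_add, map_mul, map_pow, map_ofNat]
  unfold S52_Apoly S52_Bpoly S52_Dpoly
  rw [hΔ, mul_pow, mul_pow, e3']
  linear_combination (C (27⁻¹ : K)) * h
    + (C (27⁻¹ : K) * S52_B27 (C a) (C b) X ^ 2
        + (4 * C a ^ 3 + 27 * C b ^ 2) * S52_D (C a) (C b) X ^ 5) * e27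

/-- `D` is separable when `Δ₀ ≠ 0` (and `2`, `5` are invertible). -/
theorem S52_Dpoly_separable (h2 : (2 : K) ≠ 0) (h5 : (5 : K) ≠ 0) (a b : K)
    (hΔ : 4 * a ^ 3 + 27 * b ^ 2 ≠ 0) : (S52_Dpoly a b).Separable := by
  have hc : (1280000 : K) * (4 * a ^ 3 + 27 * b ^ 2) ^ 4 ≠ 0 := by
    have : (1280000 : K) = 2 ^ 11 * 5 ^ 4 := by norm_num
    rw [this]
    exact mul_ne_zero (mul_ne_zero (pow_ne_zero 11 h2) (pow_ne_zero 4 h5)) (pow_ne_zero 4 hΔ)
  rw [Polynomial.separable_def, S52_Dpoly_derivative]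
  have h := S52_bezout (C a) (C b) (X : K[X])
  have hC : (C ((1280000 : K) * (4 * a ^ 3 + 27 * b ^ 2) ^ 4) : K[X])
      = 1280000 * (4 * C a ^ 3 + 27 * C b ^ 2) ^ 4 := by
    simp only [map_add, map_mul, map_pow, map_ofNat]
  refine ⟨C (((1280000 : K) * (4 * a ^ 3 + 27 * b ^ 2) ^ 4)⁻¹) * S52_certU (C a) (C b) X,
    C (((1280000 : K) * (4 * a ^ 3 + 27 * b ^ 2) ^ 4)⁻¹) * S52_certV (C a) (C b) X, ?_⟩
  unfold S52_Dpoly
  calc C (((1280000 : K) * (4 * a ^ 3 + 27 * b ^ 2) ^ 4)⁻¹) * S52_certU (C a) (C b) X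
          * S52_D (C a) (C b) X
        + C (((1280000 : K) * (4 * a ^ 3 + 27 * b ^ 2) ^ 4)⁻¹) * S52_certV (C a) (C b) X
          * S52_D1 (C a) (C b) X
      = C (((1280000 : K) * (4 * a ^ 3 + 27 * b ^ 2) ^ 4)⁻¹)
          * (S52_certU (C a) (C b) X * S52_D (C a) (C b) X
            + S52_certV (C a) (C b) X * S52_D1 (C a) (C b) X) := by ring
    _ = 1 := by rw [h, ← hC, ← map_mul, inv_mul_cancel₀ hc, map_one]

/-- `A` is coprime to `D` when `D` is separable (Hessian identity). -/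
theorem S52_Apoly_isCoprime (h2 : (2 : K) ≠ 0) (h3 : (3 : K) ≠ 0) (h5 : (5 : K) ≠ 0)
    (h11 : (11 : K) ≠ 0) (a b : K) (hΔ : 4 * a ^ 3 + 27 * b ^ 2 ≠ 0) :
    IsCoprime (S52_Apoly a b) (S52_Dpoly a b) := by
  have hsep := S52_Dpoly_separable h2 h5 a b hΔ
  rw [Polynomial.separable_def, S52_Dpoly_derivative] at hsep
  obtain ⟨u, v, huv⟩ := (IsCoprime.pow_right (n := 2) hsep)
  have hH := S52_hessian (C a) (C b) (X : K[X])
  have e3 : (3 : K[X]) * C (3⁻¹ : K) = 1 := by
    have : (3 : K[X]) = C 3 := (map_ofNat C 3).symm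
    rw [this, ← map_mul, mul_inv_cancel₀ h3, map_one]
  have e11 : (C (11⁻¹ : K) : K[X]) * 11 = 1 := by
    have : (11 : K[X]) = C 11 := (map_ofNat C 11).symm
    rw [this, ← map_mul, inv_mul_cancel₀ h11, map_one]
  refine ⟨-(C (11⁻¹ : K) * 528 * v), C (11⁻¹ : K) * (11 * u + 12 * v * S52_D2 (C a) (C b) X), ?_⟩
  unfold S52_Apoly S52_Dpoly at *
  linear_combination (C (11⁻¹ : K) * 11) * huv - (C (11⁻¹ : K) * v) * hH
    + e11 - (C (11⁻¹ : K) * 176 * v * S52_A3 (C a) (C b) X) * e3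

end defs

end Fermat.Agent.H95
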