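import Fermat.Agent.H95.S52Family

/-!
# P-S52 / WP-E3: the discriminant relation of the explicit family
-/

namespace Fermat.Agent.H95

set_option maxHeartbeats 4000000 in
/-- Discriminant relation `4 A^3 + 27 B^2 = Δ₀ D^5`, in the integral normalisation
`4 (3A)^3 + (27B)^2 = 27 Δ₀ D^5`. -/
theorem S52_hrel {R : Type*} [CommRing R] (a b t : R) :
    4 * S52_A3 a b t ^ 3 + S52_B27 a b t ^ 2
      = 27 * (4 * a ^ 3 + 27 * b ^ 2) * S52_D a b t ^ 5 := by
  unfold S52_A3 S52_B27 S52_D
  ring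

end Fermat.Agent.H95
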