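import Fermat.Agent.H95.S52FamilyBridge
import Fermat.Agent.H46.S52F

/-!
# P-S52 / WP-E + WP-F glue: the switched integral model `W'`

For a semistable integral Weierstrass curve `W` with `Δ ≠ 0` there are `t ∈ ℕ` (arbitrarily
large) and an integral model `W'` of the member `E_t` of the mod-5 family of `W` which is
semistable, has `Δ(W') = Δ(W) D(t)^5 ≠ 0`, the same reduction as `W` at all primes dividing
`6 Δ`, and irreducible mod-3 representation.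
-/

namespace Fermat.Agent.H95

open Polynomial Fermat.Agent.H38

/-- Integral Bezout certificate for `A` and `D`:
`UA * (3 A) + VA * D = 11 * (1280000 Δ₀^4)^2`. -/
theorem S52_bezoutAD {R : Type*} [CommRing R] (a b t : R) :
    (-176 * S52_certV a b t ^ 2) * S52_A3 a b t
      + (11 * S52_certU a b t ^ 2 * S52_D a b t
          + 22 * S52_certU a b t * S52_certV a b t * S52_D1 a b t
          + 12 * S52_certV a b t ^ 2 * S52_D2 a b t) * S52_D a b t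
      = 11 * (1280000 * (4 * a ^ 3 + 27 * b ^ 2) ^ 4) ^ 2 := by
  linear_combination
    (11 * (S52_certU a b t * S52_D a b t + S52_certV a b t * S52_D1 a b t
      + 1280000 * (4 * a ^ 3 + 27 * b ^ 2) ^ 4)) * S52_bezout a b t
    - S52_certV a b t ^ 2 * S52_hessian a b t

/-- The constant of the integral Bezout certificate. -/
def S52_bezoutConst (c₄ c₆ : ℤ) : ℤ :=
  11 * (1280000 * (4 * (-27 * c₄) ^ 3 + 27 * (-54 * c₆) ^ 2) ^ 4) ^ 2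

theorem S52_bezoutConst_ne_zero (c₄ c₆ : ℤ) (h : c₄ ^ 3 - c₆ ^ 2 ≠ 0) :
    S52_bezoutConst c₄ c₆ ≠ 0 := by
  have hΔ : 4 * (-27 * c₄) ^ 3 + 27 * (-54 * c₆) ^ 2 ≠ 0 := by
    intro h0
    apply h
    have : (78732 : ℤ) * (c₄ ^ 3 - c₆ ^ 2) = 0 := by linear_combination (-1 : ℤ) * h0
    rcases mul_eq_zero.mp this with h' | h'
    · norm_num at h'
    · exact h'
  unfold S52_bezoutConst
  exact mul_ne_zero (by norm_num)
    (pow_ne_zero 2 (mul_ne_zero (by norm_num) (pow_ne_zero 4 hΔ)))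

/-- The family polynomial `𝒜 = -27 C₄(t) ∈ ℤ[t]`. -/
noncomputable def S52_ZA (c₄ c₆ : ℤ) : ℤ[X] := -27 * rsC4 (C c₄) (C c₆) X

/-- The family polynomial `ℬ = -54 C₆(t) ∈ ℤ[t]`. -/
noncomputable def S52_ZB (c₄ c₆ : ℤ) : ℤ[X] := -54 * rsC6 (C c₄) (C c₆) X

/-- The family polynomial `𝒟 = D(t) ∈ ℤ[t]`. -/
noncomputable def S52_ZD (c₄ c₆ : ℤ) : ℤ[X] := rsDisc (C c₄) (C c₆) X

theorem S52_ZA_eval (c₄ c₆ t : ℤ) : (S52_ZA c₄ c₆).eval t = -27 * rsC4 c₄ c₆ t := by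
  have := map_rsC4 (Polynomial.evalRingHom t) (C c₄) (C c₆) X
  simp only [coe_evalRingHom, eval_C, eval_X] at this
  unfold S52_ZA
  rw [eval_mul, this]
  simp

theorem S52_ZB_eval (c₄ c₆ t : ℤ) : (S52_ZB c₄ c₆).eval t = -54 * rsC6 c₄ c₆ t := by
  have := map_rsC6 (Polynomial.evalRingHom t) (C c₄) (C c₆) X
  simp only [coe_evalRingHom, eval_C, eval_X] at this
  unfold S52_ZB
  rw [eval_mul, this]
  simp

theorem S52_ZD_eval (c₄ c₆ t : ℤ) : (S52_ZD c₄ c₆).eval t = rsDisc c₄ c₆ t := by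
  have := map_rsDisc (Polynomial.evalRingHom t) (C c₄) (C c₆) X
  simp only [coe_evalRingHom, eval_C, eval_X] at this
  unfold S52_ZD
  rw [this]

theorem S52_Z_hdisc (c₄ c₆ : ℤ) :
    4 * S52_ZA c₄ c₆ ^ 3 + 27 * S52_ZB c₄ c₆ ^ 2
      = C (4 * (-27 * c₄) ^ 3 + 27 * (-54 * c₆) ^ 2) * S52_ZD c₄ c₆ ^ 5 := by
  have h := S52_hrel (-27 * C c₄ : ℤ[X]) (-54 * C c₆) X
  rw [S52_A3_eq_rsC4, S52_B27_eq_rsC6, S52_D_eq_rsDisc] at h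
  have hC : (C (4 * (-27 * c₄) ^ 3 + 27 * (-54 * c₆) ^ 2) : ℤ[X])
      = 4 * (-27 * C c₄) ^ 3 + 27 * (-54 * C c₆) ^ 2 := by
    simp only [map_add, map_mul, map_pow, map_neg, map_ofNat]
  have h27 : (27 : ℤ[X]) ≠ 0 := by
    have : (27 : ℤ[X]) = C 27 := (map_ofNat C 27).symm
    rw [this]; exact C_ne_zero.mpr (by norm_num)
  apply mul_left_cancel₀ h27
  unfold S52_ZA S52_ZB S52_ZD
  rw [hC]
  linear_combination h

theorem S52_Z_hbez (c₄ c₆ : ℤ) :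
    (3 * (-176 * S52_certV (-27 * C c₄ : ℤ[X]) (-54 * C c₆) X ^ 2)) * S52_ZA c₄ c₆
      + (11 * S52_certU (-27 * C c₄ : ℤ[X]) (-54 * C c₆) X ^ 2 * S52_D (-27 * C c₄) (-54 * C c₆) X
          + 22 * S52_certU (-27 * C c₄ : ℤ[X]) (-54 * C c₆) X
            * S52_certV (-27 * C c₄) (-54 * C c₆) X * S52_D1 (-27 * C c₄) (-54 * C c₆) X
          + 12 * S52_certV (-27 * C c₄ : ℤ[X]) (-54 * C c₆) X ^ 2
            * S52_D2 (-27 * C c₄) (-54 * C c₆) X) * S52_ZD c₄ c₆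
      = C (S52_bezoutConst c₄ c₆) := by
  have h := S52_bezoutAD (-27 * C c₄ : ℤ[X]) (-54 * C c₆) X
  rw [S52_A3_eq_rsC4, S52_D_eq_rsDisc] at h
  have hC : (C (S52_bezoutConst c₄ c₆) : ℤ[X])
      = 11 * (1280000 * (4 * (-27 * C c₄) ^ 3 + 27 * (-54 * C c₆) ^ 2) ^ 4) ^ 2 := by
    unfold S52_bezoutConst
    simp only [map_add, map_mul, map_pow, map_neg, map_ofNat]
  unfold S52_ZA S52_ZD
  rw [hC, S52_D_eq_rsDisc]
  linear_combination h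

/-- **WP-E + WP-F glue.** -/
theorem S52_exists_switch_model (W : WeierstrassCurve ℤ) (hΔ : W.Δ ≠ 0)
    (hW : W.IsSemistableModel) (N0 : ℕ) :
    ∃ (t : ℕ) (W' : WeierstrassCurve ℤ), N0 ≤ t ∧
      W'.a₁ = W.a₁ ∧ W'.a₂ = W.a₂ ∧ W'.a₃ = W.a₃ ∧
      W'.c₄ = rsC4 W.c₄ W.c₆ (t : ℤ) ∧ W'.c₆ = rsC6 W.c₄ W.c₆ (t : ℤ) ∧
      W'.Δ = W.Δ * rsDisc W.c₄ W.c₆ (t : ℤ) ^ 5 ∧ rsDisc W.c₄ W.c₆ (t : ℤ) ≠ 0 ∧ W'.Δ ≠ 0 ∧
      W'.IsSemistableModel ∧ W'.ModRepIsIrreducible 3 ∧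
      (∀ p : ℕ, (p : ℤ) ∣ 6 * W.Δ → W'.reductionMod p = W.reductionMod p) ∧
      (∀ p : ℕ, (p : ℤ) ∣ 6 * W.Δ → W'.apOfModel p = W.apOfModel p) := by
  have hc46 : W.c₄ ^ 3 - W.c₆ ^ 2 ≠ 0 := by
    rw [← W.c_relation]
    exact mul_ne_zero (by norm_num) hΔ
  have hc := S52_bezoutConst_ne_zero W.c₄ W.c₆ hc46
  have hM0 : (6 : ℤ) ^ 7 * W.Δ * S52_bezoutConst W.c₄ W.c₆ ≠ 0 :=
    mul_ne_zero (mul_ne_zero (by norm_num) hΔ) hc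
  have hMpos : 0 < ((6 : ℤ) ^ 7 * W.Δ * S52_bezoutConst W.c₄ W.c₆).natAbs :=
    Int.natAbs_pos.mpr hM0
  have hc46Q : ((W.c₄ : ℤ) : ℚ) ^ 3 - ((W.c₆ : ℤ) : ℚ) ^ 2 ≠ 0 := by
    intro h
    apply hc46
    have : (((W.c₄ ^ 3 - W.c₆ ^ 2 : ℤ)) : ℚ) = 0 := by push_cast; exact h
    exact_mod_cast this
  obtain ⟨n, hn, hMn, -, hroot⟩ := S52_rs_exists_specialization (W.c₄ : ℚ) (W.c₆ : ℚ) hc46Q
    _ hMpos N0
  have ht : (6 : ℤ) ^ 7 * W.Δ * S52_bezoutConst W.c₄ W.c₆ ∣ (n : ℤ) := by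
    rw [← Int.natAbs_dvd]
    exact_mod_cast hMn
  obtain ⟨W', h1, h2, h3, h4, h6, hΔ', hD, hΔ'0, hss, hred, hap⟩ :=
    Fermat.Agent.H46.exists_semistable_model_of_family W hΔ hW (S52_ZA W.c₄ W.c₆)
      (S52_ZB W.c₄ W.c₆) (S52_ZD W.c₄ W.c₆) _ _ (S52_bezoutConst W.c₄ W.c₆)
      (by rw [S52_ZA_eval]; simp) (by rw [S52_ZB_eval]; simp) (by rw [S52_ZD_eval]; simp)
      (S52_Z_hdisc W.c₄ W.c₆) (S52_Z_hbez W.c₄ W.c₆) (n : ℤ) ht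
  rw [S52_ZA_eval] at h4
  rw [S52_ZB_eval] at h6
  rw [S52_ZD_eval] at hΔ' hD
  have h4' : W'.c₄ = rsC4 W.c₄ W.c₆ (n : ℤ) := by
    have : (-27 : ℤ) ≠ 0 := by norm_num
    exact mul_left_cancel₀ this h4
  have h6' : W'.c₆ = rsC6 W.c₄ W.c₆ (n : ℤ) := by
    have : (-54 : ℤ) ≠ 0 := by norm_num
    exact mul_left_cancel₀ this h6
  refine ⟨n, W', hn, h1, h2, h3, h4', h6', hΔ', hD, hΔ'0, hss, ?_, hred, hap⟩
  apply S52_rs_modRepIsIrreducible_three W' hΔ'0 (W.c₄ : ℚ) (W.c₆ : ℚ) (n : ℚ)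
  · rw [h4']
    have := map_rsC4 (Int.castRingHom ℚ) W.c₄ W.c₆ (n : ℤ)
    simpa using this
  · rw [h6']
    have := map_rsC6 (Int.castRingHom ℚ) W.c₄ W.c₆ (n : ℤ)
    simpa using this
  · exact hroot

end Fermat.Agent.H95
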